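import Mathlib

set_option autoImplicit false

namespace Fermat.Agent.KummerFLT

open Finset Polynomial

/-- The properties of `ℤ[ζ_p]` needed for the second case of Kummer's theorem. -/
structure KummerSetup (p : ℕ) (R : Type*) [CommRing R] [IsDomain R] (ζ : R) : Prop where
  hp : p.Prime
  odd : Odd p
  prim : IsPrimitiveRoot ζ p
  prime : Prime (ζ - 1)
  assoc : Associated ((ζ - 1) ^ (p - 1)) (p : R)
  res : ∀ x : R, ∃ n : ℤ, (ζ - 1) ∣ x - n
  int : ∀ n : ℤ, (ζ - 1) ∣ (n : R) → (p : ℤ) ∣ n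
  kummer : ∀ u : Rˣ, (∃ n : ℤ, (p : R) ∣ u - n) → ∃ v : Rˣ, u = v ^ p

variable {p : ℕ} {R : Type*} [CommRing R] [IsDomain R] {ζ : R}

lemma KummerSetup.pow_int (S : KummerSetup p R ζ) (x : R) : ∃ n : ℤ, (p : R) ∣ x ^ p - n := by
  obtain ⟨n, y, hy⟩ := S.res x
  have hx : x = n + (ζ - 1) * y := by rw [← hy]; ring
  refine ⟨n ^ p, ?_⟩
  have h1 : (p : R) ∣ (ζ - 1) ^ p := by
    obtain ⟨u, hu⟩ := S.assoc
    rw [← hu]
    have : (ζ - 1) ^ p = (ζ - 1) ^ (p - 1) * (ζ - 1) := by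
      rw [← pow_succ]; congr 1; have := S.hp.pos; omega
    rw [this]
    exact mul_dvd_mul_left _ (Units.coe_dvd)
  have h2 : (p : R) ∣ ((n : R) + (ζ - 1) * y) ^ p - ((n : R) ^ p + ((ζ - 1) * y) ^ p) := by
    obtain ⟨r, hr⟩ := exists_add_pow_prime_eq S.hp (n : R) ((ζ - 1) * y)
    rw [hr]
    exact ⟨n * ((ζ - 1) * y) * r, by ring⟩
  have h3 : (p : R) ∣ ((ζ - 1) * y) ^ p := by
    rw [mul_pow]; exact Dvd.dvd.mul_right h1 _
  rw [hx]
  push_cast
  have := dvd_add h2 h3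
  ring_nf at this ⊢
  exact this

lemma KummerSetup.factor (S : KummerSetup p R ζ) (m : ℕ) (x y z : R) (ε : Rˣ)
    (hxy : IsCoprime x y) (hy : ¬ (ζ - 1) ∣ y)
    (heq : x ^ p + y ^ p = ε * ((ζ - 1) ^ (m + 1) * z) ^ p) :
    ∃ η₀ ∈ nthRootsFinset p (1 : R), ∃ q : R → R,
      (∀ η ∈ nthRootsFinset p (1 : R), x + η * y = (ζ - 1) * q η) ∧
      (ζ - 1) ∣ q η₀ ∧
      (∀ η ∈ nthRootsFinset p (1 : R), η ≠ η₀ → ¬ (ζ - 1) ∣ q η) ∧
      (∀ η ∈ nthRootsFinset p (1 : R), ∀ η' ∈ nthRootsFinset p (1 : R), η ≠ η' →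
        IsCoprime (q η) (q η')) ∧
      ∏ η ∈ nthRootsFinset p (1 : R), q η = ε * ((ζ - 1) ^ (m * p) * z ^ p) := by
  classical
  have hp := S.hp
  have : Fact p.Prime := ⟨hp⟩
  set lam := ζ - 1 with hlam
  set Z := nthRootsFinset p (1 : R) with hZ
  have hprod : ∏ η ∈ Z, (x + η * y) = ε * (lam ^ (m + 1) * z) ^ p := by
    rw [← heq, S.prim.pow_add_pow_eq_prod_add_mul x y S.odd]
  have hlam0 : lam ≠ 0 := S.prime.ne_zero
  -- lam divides the product
  have hdvd : lam ∣ ∏ η ∈ Z, (x + η * y) := by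
    rw [hprod]
    apply Dvd.dvd.mul_left
    rw [mul_pow]
    apply Dvd.dvd.mul_right
    rw [← pow_mul]
    exact dvd_pow_self _ (by have := hp.pos; positivity)
  obtain ⟨η1, hη1, h1⟩ := (S.prime.dvd_finsetProd_iff _).mp hdvd
  have hall : ∀ η ∈ Z, ∃ q, x + η * y = lam * q := by
    intro η hη
    have h2 : lam ∣ η - η1 := S.prim.sub_one_dvd_sub hp hη hη1
    have h3 : x + η * y = (x + η1 * y) + (η - η1) * y := by ring
    change lam ∣ _
    rw [h3]
    exact dvd_add h1 (Dvd.dvd.mul_right h2 _)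
  choose! q hq using hall
  -- differences
  have hdiff : ∀ η ∈ Z, ∀ η' ∈ Z, η ≠ η' → ∃ u : Rˣ, q η - q η' = u * y := by
    intro η hη η' hη' hne
    obtain ⟨u, hu⟩ := S.prim.nthRootsFinset_pairwise_associated_sub_one_sub_of_prime hp hη hη' hne
    refine ⟨u, ?_⟩
    apply mul_left_cancel₀ hlam0
    have : lam * (q η - q η') = (η - η') * y := by
      rw [mul_sub, ← hq η hη, ← hq η' hη']; ring
    rw [this, ← hu]; ring
  have hnd : ∀ η ∈ Z, ∀ η' ∈ Z, η ≠ η' → ¬ lam ∣ q η - q η' := by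
    intro η hη η' hη' hne hd
    obtain ⟨u, hu⟩ := hdiff η hη η' hη' hne
    rw [hu] at hd
    rcases S.prime.dvd_or_dvd hd with h | h
    · exact S.prime.not_isUnit (isUnit_of_dvd_unit h u.isUnit)
    · exact hy h
  -- pigeonhole
  choose n hn using S.res
  have hcard : Z.card = p := S.prim.card_nthRootsFinset
  have hex : ∃ η₀ ∈ Z, lam ∣ q η₀ := by
    by_contra hcon
    push Not at hcon
    have hmaps : ∀ η ∈ Z, ((n (q η) : ℤ) : ZMod p) ∈ (univ : Finset (ZMod p)).erase 0 := by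
      intro η hη
      rw [mem_erase]
      refine ⟨?_, mem_univ _⟩
      intro h0
      rw [ZMod.intCast_zmod_eq_zero_iff_dvd] at h0
      apply hcon η hη
      obtain ⟨k, hk⟩ := h0
      have h4 : lam ∣ ((n (q η) : ℤ) : R) := by
        rw [hk]; push_cast
        apply Dvd.dvd.mul_right
        exact S.prim.sub_one_dvd_natCast hp.one_lt
      have := dvd_add (hn (q η)) h4
      rwa [sub_add_cancel] at this
    obtain ⟨η, hη, η', hη', hne, heq'⟩ := Finset.exists_ne_map_eq_of_card_lt_of_maps_to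
      (by rw [card_erase_of_mem (mem_univ _), card_univ, ZMod.card, hcard]; have := hp.pos; omega)
      hmaps
    apply hnd η hη η' hη' hne
    have h5 : ((n (q η) - n (q η') : ℤ) : ZMod p) = 0 := by
      push_cast; rw [sub_eq_zero]; exact heq'
    rw [ZMod.intCast_zmod_eq_zero_iff_dvd] at h5
    obtain ⟨k, hk⟩ := h5
    have h6 : lam ∣ ((n (q η) - n (q η') : ℤ) : R) := by
      rw [hk]; push_cast
      apply Dvd.dvd.mul_right
      exact S.prim.sub_one_dvd_natCast hp.one_lt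
    have h7 := dvd_add (dvd_sub (hn (q η)) (hn (q η'))) h6
    push_cast at h7
    convert h7 using 1
    ring
  obtain ⟨η₀, hη₀, hd0⟩ := hex
  refine ⟨η₀, hη₀, q, hq, hd0, ?_, ?_, ?_⟩
  · intro η hη hne hd
    exact hnd η hη η₀ hη₀ hne (dvd_sub hd hd0)
  · intro η hη η' hη' hne
    obtain ⟨u, hu⟩ := hdiff η hη η' hη' hne
    obtain ⟨a, b, hab⟩ := hxy
    -- y = u⁻¹ (qη - qη')
    have hy' : y = (↑u⁻¹ : R) * (q η - q η') := by
      rw [hu, ← mul_assoc, Units.inv_mul, one_mul]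
    have hx' : x = lam * q η - η * y := by rw [← hq η hη]; ring
    refine ⟨a * lam + (b - a * η) * (↑u⁻¹ : R), -((b - a * η) * (↑u⁻¹ : R)), ?_⟩
    calc (a * lam + (b - a * η) * (↑u⁻¹ : R)) * q η + -((b - a * η) * (↑u⁻¹ : R)) * q η'
        = a * (lam * q η) + (b - a * η) * ((↑u⁻¹ : R) * (q η - q η')) := by ring
      _ = a * (lam * q η - η * y) + b * y := by rw [← hy']; ring
      _ = 1 := by rw [← hx']; exact hab
  · have h8 : lam ^ p * ∏ η ∈ Z, q η = lam ^ p * (ε * (lam ^ (m * p) * z ^ p)) := by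
      rw [← hcard, ← Finset.prod_const, ← Finset.prod_mul_distrib]
      rw [Finset.prod_congr rfl (fun η hη => (hq η hη).symm), hprod]
      rw [Finset.prod_const, hcard]
      ring_nf
    exact mul_left_cancel₀ (pow_ne_zero _ hlam0) h8

theorem KummerSetup.no_solution [IsPrincipalIdealRing R] (S : KummerSetup p R ζ) :
    ∀ (m : ℕ) (x y z : R) (ε : Rˣ), IsCoprime x y → ¬ (ζ - 1) ∣ y → ¬ (ζ - 1) ∣ z →
      x ^ p + y ^ p ≠ ε * ((ζ - 1) ^ (m + 1) * z) ^ p := by
  classical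
  intro m
  induction m with
  | zero =>
    intro x y z ε hxy hy hz heq
    obtain ⟨η₀, hη₀, q, hq, hd0, hnd, hcop, hprod⟩ := S.factor 0 x y z ε hxy hy heq
    rw [zero_mul, pow_zero, one_mul] at hprod
    have h1 : (ζ - 1) ∣ ε * z ^ p := by
      rw [← hprod]
      exact hd0.trans (Finset.dvd_prod_of_mem q hη₀)
    rcases S.prime.dvd_or_dvd h1 with h | h
    · exact S.prime.not_isUnit (isUnit_of_dvd_unit h ε.isUnit)
    · exact hz (S.prime.dvd_of_dvd_pow h)
  | succ m ih =>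
    intro x y z ε hxy hy hz heq
    have hp := S.hp
    have : Fact p.Prime := ⟨hp⟩
    have : NeZero p := ⟨hp.ne_zero⟩
    have hp3 : 3 ≤ p := by
      have := hp.two_le
      have h := S.odd
      rcases Nat.lt_or_ge p 3 with h3 | h3
      · have : p = 2 := by omega
        subst this
        exact absurd h (by decide)
      · exact h3
    obtain ⟨η₀, hη₀, q, hq, hd0, hnd, hcop, hprod⟩ := S.factor (m + 1) x y z ε hxy hy heq
    set lam := ζ - 1 with hlam
    set Z := nthRootsFinset p (1 : R) with hZ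
    have hlam0 : lam ≠ 0 := S.prime.ne_zero
    -- split the product
    have hsplit : q η₀ * ∏ η ∈ Z.erase η₀, q η = ε * (lam ^ ((m + 1) * p) * z ^ p) := by
      rw [Finset.mul_prod_erase Z q hη₀, hprod]
    have hndprod : ¬ lam ∣ ∏ η ∈ Z.erase η₀, q η := by
      intro hd
      obtain ⟨η, hη, h⟩ := (S.prime.dvd_finsetProd_iff _).mp hd
      rw [mem_erase] at hη
      exact hnd η hη.2 hη.1 h
    have hpow : lam ^ ((m + 1) * p) ∣ q η₀ := by
      apply S.prime.pow_dvd_of_dvd_mul_right _ hndprod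
      rw [hsplit]
      exact ⟨ε * z ^ p, by ring⟩
    obtain ⟨w, hw⟩ := hpow
    have hw2 : w * ∏ η ∈ Z.erase η₀, q η = ε * z ^ p := by
      apply mul_left_cancel₀ (pow_ne_zero ((m + 1) * p) hlam0)
      rw [← mul_assoc, ← hw, hsplit]; ring
    -- the roots of unity
    have hζZ : ζ ∈ Z := (mem_nthRootsFinset hp.pos 1).mpr S.prim.pow_eq_one
    have hη₀' : η₀ ^ p = 1 := (mem_nthRootsFinset hp.pos 1).mp hη₀
    have hη₀0 : η₀ ≠ 0 := by
      intro h; rw [h, zero_pow hp.ne_zero] at hη₀'; exact zero_ne_one hη₀'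
    set η₁ := η₀ * ζ with hη₁
    set η₂ := η₀ * ζ ^ (p - 1) with hη₂
    have hη₁Z : η₁ ∈ Z := by
      rw [hZ, mem_nthRootsFinset hp.pos 1, hη₁, mul_pow, hη₀', S.prim.pow_eq_one, one_mul]
    have hη₂Z : η₂ ∈ Z := by
      rw [hZ, mem_nthRootsFinset hp.pos 1, hη₂, mul_pow, hη₀', one_mul, ← pow_mul,
        mul_comm (p - 1) p, pow_mul, S.prim.pow_eq_one, one_pow]
    have hζζ : ζ * ζ ^ (p - 1) = 1 := by
      rw [← pow_succ', Nat.sub_add_cancel hp.pos, S.prim.pow_eq_one]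
    have hη₁ne : η₁ ≠ η₀ := by
      intro h
      have : ζ = 1 := by
        apply mul_left_cancel₀ hη₀0; rw [mul_one]; exact h
      exact S.prim.ne_one hp.one_lt this
    have hη₂ne : η₂ ≠ η₀ := by
      intro h
      have h1 : ζ ^ (p - 1) = 1 := by
        apply mul_left_cancel₀ hη₀0; rw [mul_one]; exact h
      rw [h1, mul_one] at hζζ
      exact S.prim.ne_one hp.one_lt hζζ
    have hη₁₂ : η₁ ≠ η₂ := by
      intro h
      have h1 : ζ = ζ ^ (p - 1) := mul_left_cancel₀ hη₀0 h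
      have h2 : ζ ^ 2 = 1 := by rw [pow_two]; nth_rw 2 [h1]; exact hζζ
      have := S.prim.dvd_of_pow_eq_one 2 h2
      have := Nat.le_of_dvd (by norm_num) this
      omega
    have hrel : q η₁ + ζ * q η₂ = (1 + ζ) * q η₀ := by
      apply mul_left_cancel₀ hlam0
      have e1 := hq η₁ hη₁Z
      have e2 := hq η₂ hη₂Z
      have e0 := hq η₀ hη₀
      calc lam * (q η₁ + ζ * q η₂) = lam * q η₁ + ζ * (lam * q η₂) := by ring
        _ = (x + η₁ * y) + ζ * (x + η₂ * y) := by rw [← e1, ← e2]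
        _ = (x + η₀ * ζ * y) + ζ * x + η₀ * (ζ * ζ ^ (p - 1)) * y := by rw [hη₁, hη₂]; ring
        _ = (1 + ζ) * (x + η₀ * y) := by rw [hζζ]; ring
        _ = (1 + ζ) * (lam * q η₀) := by rw [e0]
        _ = lam * ((1 + ζ) * q η₀) := by ring
    -- each factor is a p-th power up to a unit
    have hpth : ∀ η ∈ Z, η ≠ η₀ → ∃ a : R, Associated (a ^ p) (q η) := by
      intro η hη hne
      have hηe : η ∈ Z.erase η₀ := mem_erase.mpr ⟨hne, hη⟩
      have h1 : q η * (w * ∏ η' ∈ (Z.erase η₀).erase η, q η') = ε * z ^ p := by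
        rw [← hw2, ← Finset.mul_prod_erase (Z.erase η₀) q hηe]; ring
      apply exists_associated_pow_of_associated_pow_mul (c := z)
        (b := w * ∏ η' ∈ (Z.erase η₀).erase η, q η')
      · apply IsCoprime.mul_right
        · have := hcop η hη η₀ hη₀ hne
          rw [hw] at this
          exact this.of_mul_right_right
        · apply IsCoprime.prod_right
          intro η' hη'
          rw [mem_erase, mem_erase] at hη'
          exact hcop η hη η' hη'.2.2 (Ne.symm hη'.1)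
      · rw [h1]
        exact ⟨ε, by ring⟩
    obtain ⟨a₁, u₁, hu₁⟩ := hpth η₁ hη₁Z hη₁ne
    obtain ⟨a₂, u₂, hu₂⟩ := hpth η₂ hη₂Z hη₂ne
    obtain ⟨a₀, u₀, hu₀⟩ : ∃ a : R, Associated (a ^ p) w := by
      apply exists_associated_pow_of_associated_pow_mul (c := z)
        (b := ∏ η' ∈ (Z.erase η₀), q η')
      · apply IsCoprime.prod_right
        intro η' hη'
        rw [mem_erase] at hη'
        have := hcop η₀ hη₀ η' hη'.2 (Ne.symm hη'.1)
        rw [hw] at this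
        exact this.of_mul_left_right
      · rw [hw2]
        exact ⟨ε, by ring⟩
    -- 1 + ζ is a unit
    obtain ⟨v, hv⟩ : IsUnit (1 + ζ) := by
      have := S.prim.geom_sum_isUnit (j := 2) hp.two_le
        ((Nat.coprime_primes Nat.prime_two hp).mpr (by omega))
      simpa [Finset.sum_range_succ] using this
    have hζu : IsUnit ζ := S.prim.isUnit hp.ne_zero
    obtain ⟨ζu, hζu⟩ := hζu
    -- the equation
    set ε₁ : Rˣ := ζu * u₂ * u₁⁻¹ with hε₁
    set ε₂ : Rˣ := v * u₀ * u₁⁻¹ with hε₂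
    have hmain : a₁ ^ p + ε₁ * a₂ ^ p = ε₂ * (lam ^ (m + 1) * a₀) ^ p := by
      have h1 : a₁ ^ p * u₁ + ζ * (a₂ ^ p * u₂) = (1 + ζ) * (lam ^ ((m + 1) * p) * (a₀ ^ p * u₀)) := by
        rw [hu₁, hu₂, hu₀, ← hw]; exact hrel
      have h2 : (u₁ : R) * (a₁ ^ p + ε₁ * a₂ ^ p) = u₁ * (ε₂ * (lam ^ (m + 1) * a₀) ^ p) := by
        have e1 : (u₁ : R) * ε₁ = ζ * u₂ := by
          rw [hε₁]; push_cast; rw [hζu]
          rw [mul_comm, mul_assoc, Units.inv_mul, mul_one]
        have e2 : (u₁ : R) * ε₂ = (1 + ζ) * u₀ := by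
          rw [hε₂]; push_cast; rw [hv]
          rw [mul_comm, mul_assoc, Units.inv_mul, mul_one]
        calc (u₁ : R) * (a₁ ^ p + ε₁ * a₂ ^ p) = a₁ ^ p * u₁ + (u₁ * ε₁) * a₂ ^ p := by ring
          _ = a₁ ^ p * u₁ + ζ * (a₂ ^ p * u₂) := by rw [e1]; ring
          _ = (1 + ζ) * (lam ^ ((m + 1) * p) * (a₀ ^ p * u₀)) := h1
          _ = ((1 + ζ) * u₀) * (lam ^ ((m + 1) * p) * a₀ ^ p) := by ring
          _ = (u₁ * ε₂) * (lam ^ ((m + 1) * p) * a₀ ^ p) := by rw [e2]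
          _ = u₁ * (ε₂ * (lam ^ (m + 1) * a₀) ^ p) := by rw [mul_pow, ← pow_mul]; ring
      exact (Units.mul_right_inj u₁).mp h2
    have hlw : ¬ lam ∣ w := by
      intro h
      have h1 : lam ∣ ε * z ^ p := by rw [← hw2]; exact Dvd.dvd.mul_right h _
      rcases S.prime.dvd_or_dvd h1 with h | h
      · exact S.prime.not_isUnit (isUnit_of_dvd_unit h ε.isUnit)
      · exact hz (S.prime.dvd_of_dvd_pow h)
    have hla₀ : ¬ lam ∣ a₀ := by
      intro h
      apply hlw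
      rw [← hu₀]
      exact Dvd.dvd.mul_right (h.trans (dvd_pow_self _ hp.ne_zero)) _
    have hla₂ : ¬ lam ∣ a₂ := by
      intro h
      apply hnd η₂ hη₂Z hη₂ne
      rw [← hu₂]
      exact Dvd.dvd.mul_right (h.trans (dvd_pow_self _ hp.ne_zero)) _
    have hcop12 : IsCoprime a₁ a₂ := by
      have h1 := hcop η₁ hη₁Z η₂ hη₂Z hη₁₂
      rw [← hu₁, ← hu₂] at h1
      have h2 := h1.of_mul_left_left.of_mul_right_left
      exact (IsCoprime.pow_iff hp.pos hp.pos).mp h2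
    -- ε₁ is congruent to an integer mod p
    have hpl : (p : R) ∣ (lam ^ (m + 1) * a₀) ^ p := by
      obtain ⟨u, hu⟩ := S.assoc
      rw [← hu, mul_pow, ← pow_mul]
      apply Dvd.dvd.mul_right
      have : lam ^ (p - 1) ∣ lam ^ ((m + 1) * p) := by
        apply pow_dvd_pow
        nlinarith [hp.pos, Nat.sub_le p 1]
      exact (Units.mul_right_dvd.mpr dvd_rfl).trans this
    obtain ⟨n₁, hn₁⟩ := S.pow_int a₁
    obtain ⟨n₂, hn₂⟩ := S.pow_int a₂
    have hn₂p : ¬ (p : ℤ) ∣ n₂ := by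
      intro h
      apply hla₂
      apply S.prime.dvd_of_dvd_pow (n := p)
      have e1 : lam ∣ (p : R) := S.prim.sub_one_dvd_natCast hp.one_lt
      have e2 : lam ∣ ((n₂ : ℤ) : R) := by
        obtain ⟨k, hk⟩ := h
        rw [hk]; push_cast
        exact Dvd.dvd.mul_right e1 _
      have := dvd_add (e1.trans hn₂) e2
      rwa [sub_add_cancel] at this
    obtain ⟨s, t, hst⟩ : IsCoprime n₂ (p : ℤ) := by
      rw [isCoprime_comm, Prime.coprime_iff_not_dvd (Nat.prime_iff_prime_int.mp hp)]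
      exact hn₂p
    have hε₁int : ∃ n : ℤ, (p : R) ∣ (ε₁ : R) - n := by
      refine ⟨-n₁ * s, ?_⟩
      have e1 : (p : R) ∣ a₁ ^ p + ε₁ * a₂ ^ p := by
        rw [hmain]; exact Dvd.dvd.mul_left hpl _
      obtain ⟨c1, hc1⟩ := e1
      obtain ⟨c2, hc2⟩ := hn₁
      obtain ⟨c3, hc3⟩ := hn₂
      have hst' : (s : R) * n₂ + t * p = 1 := by exact_mod_cast congrArg (Int.cast : ℤ → R) hst
      refine ⟨s * (c1 - c2 - ε₁ * c3) + ε₁ * t, ?_⟩
      push_cast
      have e2 : (n₁ : R) = a₁ ^ p - p * c2 := by rw [← hc2]; ring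
      have e3 : (n₂ : R) = a₂ ^ p - p * c3 := by rw [← hc3]; ring
      have e4 : a₁ ^ p = p * c1 - ε₁ * a₂ ^ p := by rw [← hc1]; ring
      have e5 : (ε₁ : R) = ε₁ * (s * n₂ + t * p) := by rw [hst', mul_one]
      calc (ε₁ : R) - -(n₁ : R) * s = ε₁ * (s * n₂ + t * p) + n₁ * s := by rw [← e5]; ring
        _ = p * (s * (c1 - c2 - ε₁ * c3) + ε₁ * t) := by rw [e2, e3, e4]; ring
    obtain ⟨v₁, hv₁⟩ := S.kummer ε₁ hε₁int
    apply ih a₁ (v₁ * a₂) a₀ ε₂
    · exact (isCoprime_mul_unit_left_right v₁.isUnit a₁ a₂).mpr hcop12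
    · intro h
      rcases S.prime.dvd_or_dvd h with h | h
      · exact S.prime.not_isUnit (isUnit_of_dvd_unit h v₁.isUnit)
      · exact hla₂ h
    · exact hla₀
    · rw [← hmain, hv₁, mul_pow]
      push_cast
      rfl

end Fermat.Agent.KummerFLT
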