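import Fermat.Agent.KummerFLT.KummerLemma

set_option autoImplicit false

namespace Fermat.Agent.KummerFLT

open Finset Polynomial NumberField

variable {p : ℕ} [hpf : Fact p.Prime] {K : Type*} [Field K] [NumberField K]
  [IsCyclotomicExtension {p} ℚ K] {ζ : K} (hζ : IsPrimitiveRoot ζ p)

/-- compute Kummer logarithms from a candidate series. -/
lemma klog_of_series (hp3 : 3 ≤ p) {F : ℤ[X]} {u : (𝓞 K)ˣ}
    (hF : aeval hζ.toInteger F = (u : 𝓞 K)) (c V : ℕ → ℕ)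
    (hc : ∀ j, PowerSeries.coeff j (psi p F) = (c j : ZMod p))
    (hV : ∀ k < p - 2, (∑ x ∈ antidiagonal k, V x.1 * c x.2) % p = ((k + 1) * c (k + 1)) % p)
    {k : ℕ} (hk : k < p - 2) : klog hζ u k = (V k : ZMod p) := by
  rw [klog_eq hζ hp3 hF hk]
  set f := psi p F with hf
  set Vs : PowerSeries (ZMod p) := PowerSeries.mk (fun k => (V k : ZMod p)) with hVs
  have h0 := constantCoeff_ne hζ hp3 hF
  have h1 : (PowerSeries.X : PowerSeries (ZMod p)) ^ (p - 2) ∣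
      PowerSeries.derivative (ZMod p) f - Vs * f := by
    rw [PowerSeries.X_pow_dvd_iff]
    intro m hm
    rw [map_sub, sub_eq_zero, PowerSeries.coeff_derivative, hc, PowerSeries.coeff_mul]
    have h2 := hV m hm
    rw [← Nat.ModEq, ← ZMod.natCast_eq_natCast_iff] at h2
    push_cast at h2
    rw [mul_comm, ← h2]
    refine Finset.sum_congr rfl (fun x _ => ?_)
    rw [hVs, PowerSeries.coeff_mk, hc]
  have h2 : dlog f - Vs = (PowerSeries.derivative (ZMod p) f - Vs * f) * f⁻¹ := by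
    unfold dlog
    rw [sub_mul, mul_assoc Vs, PowerSeries.mul_inv_cancel _ h0, mul_one]
  have h3 : (PowerSeries.X : PowerSeries (ZMod p)) ^ (p - 2) ∣ dlog f - Vs := by
    rw [h2]; exact Dvd.dvd.mul_right h1 _
  rw [PowerSeries.X_pow_dvd_iff] at h3
  have h4 := h3 k hk
  rw [map_sub, sub_eq_zero] at h4
  rw [h4, hVs, PowerSeries.coeff_mk]

/-- the test polynomials -/
noncomputable def testPoly (i : ℕ) : ℤ[X] := if i = 0 then X else ∑ k ∈ range (i + 1), X ^ k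

/-- their coefficients in `1 + X` expansion -/
def testCoeff (i j : ℕ) : ℕ := if i = 0 then Nat.choose 1 j else ∑ k ∈ range (i + 1), Nat.choose k j

lemma coeff_one_add_X_pow (k j : ℕ) :
    PowerSeries.coeff j ((1 + PowerSeries.X : PowerSeries (ZMod p)) ^ k) = (Nat.choose k j : ZMod p) := by
  have h : (1 + PowerSeries.X : PowerSeries (ZMod p)) ^ k = (((1 + X) ^ k : (ZMod p)[X]) : PowerSeries (ZMod p)) := by
    push_cast; rfl
  rw [h, Polynomial.coeff_coe, Polynomial.coeff_one_add_X_pow]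

lemma coeff_testPoly (i j : ℕ) : PowerSeries.coeff j (psi p (testPoly i)) = (testCoeff i j : ZMod p) := by
  unfold testPoly testCoeff
  split_ifs with h
  · rw [psi_X, ← pow_one (1 + PowerSeries.X : PowerSeries (ZMod p)), coeff_one_add_X_pow]
  · rw [map_sum, map_sum]
    push_cast
    refine Finset.sum_congr rfl (fun k _ => ?_)
    rw [map_pow, psi_X, coeff_one_add_X_pow]

omit [NumberField K] [IsCyclotomicExtension {p} ℚ K] in
lemma isUnit_testPoly {i : ℕ} (hi : i + 1 < p) : IsUnit (aeval hζ.toInteger (testPoly i)) := by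
  unfold testPoly
  split_ifs with h
  · rw [aeval_X]; exact zetaUnit_aux hζ
  · rw [map_sum]
    simp only [map_pow, aeval_X]
    apply hζ.toInteger_isPrimitiveRoot.geom_sum_isUnit hpf.out.two_le
    exact (Nat.coprime_of_lt_prime (by omega) hi hpf.out).symm

include hζ in
theorem kummer_lemma_concrete (hp3 : 3 ≤ p) {r : ℕ} (hr : r = (p - 1) / 2)
    (V : Fin r → ℕ → ℕ) (N : ℕ → Fin r → ℕ)
    (hV : ∀ i : Fin r, ∀ k < p - 2,
      (∑ x ∈ antidiagonal k, V i x.1 * testCoeff i x.2) % p = ((k + 1) * testCoeff i (k + 1)) % p)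
    (hN : ∀ i j : Fin r, (∑ k ∈ range (p - 2), V i k * N k j) % p = if i = j then 1 else 0)
    (v : (𝓞 K)ˣ) (hv : ∃ n : ℤ, (p : 𝓞 K) ∣ (v : 𝓞 K) - n) : ∃ w : (𝓞 K)ˣ, v = w ^ p := by
  have hlt : ∀ i : Fin r, (i : ℕ) + 1 < p := fun i => by have := i.2; omega
  refine kummer_lemma_of_klog hζ hp3 hr (fun i => (isUnit_testPoly hζ (hlt i)).unit)
    (fun k j => (N k j : ZMod p)) ?_ v hv
  intro i j
  have h1 : ∀ k : Fin (p - 2), klog hζ (isUnit_testPoly hζ (hlt i)).unit k = (V i k : ZMod p) := by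
    intro k
    exact klog_of_series hζ hp3 (F := testPoly i) (u := (isUnit_testPoly hζ (hlt i)).unit)
      (by rw [IsUnit.unit_spec]) (testCoeff i) (V i) (coeff_testPoly (p := p) i) (hV i) k.2
  have h2 : ∑ k : Fin (p - 2), klog hζ (isUnit_testPoly hζ (hlt i)).unit k * (N k j : ZMod p)
      = ((∑ k ∈ range (p - 2), V i k * N k j : ℕ) : ZMod p) := by
    rw [Finset.sum_range]
    push_cast
    exact Finset.sum_congr rfl (fun k _ => by rw [h1 k])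
  rw [h2]
  have h3 := hN i j
  split_ifs at h3 ⊢ with hij
  · rw [show (1 : ZMod p) = ((1 : ℕ) : ZMod p) by simp, ZMod.natCast_eq_natCast_iff, Nat.ModEq, h3,
      Nat.mod_eq_of_lt (by omega)]
  · rw [show (0 : ZMod p) = ((0 : ℕ) : ZMod p) by simp, ZMod.natCast_eq_natCast_iff, Nat.ModEq, h3,
      Nat.zero_mod]

/-- table lookup -/
def tbl (L : List (List ℕ)) (i k : ℕ) : ℕ := (L.getD i []).getD k 0


def V5 : List (List ℕ) := [[1, 4, 1], [3, 1, 2]]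
def N5 : List (List ℕ) := [[4, 4], [3, 4], [0, 0]]

theorem kummer_lemma_5 [Fact (Nat.Prime 5)] {K : Type*} [Field K] [NumberField K]
    [IsCyclotomicExtension {5} ℚ K] {ζ : K} (hζ : IsPrimitiveRoot ζ 5)
    (v : (𝓞 K)ˣ) (hv : ∃ n : ℤ, ((5 : ℕ) : 𝓞 K) ∣ (v : 𝓞 K) - n) : ∃ w : (𝓞 K)ˣ, v = w ^ 5 :=
  kummer_lemma_concrete (p := 5) hζ (by norm_num) (r := 2) (by norm_num)
    (fun i k => tbl V5 i k) (fun k j => tbl N5 k j)
    (by decide) (by decide) v hv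

def V7 : List (List ℕ) := [[1, 6, 1, 6, 1], [4, 5, 1, 3, 2], [1, 2, 0, 4, 3]]
def N7 : List (List ℕ) := [[0, 3, 3], [5, 4, 0], [0, 0, 0], [1, 6, 3], [0, 0, 0]]

theorem kummer_lemma_7 [Fact (Nat.Prime 7)] {K : Type*} [Field K] [NumberField K]
    [IsCyclotomicExtension {7} ℚ K] {ζ : K} (hζ : IsPrimitiveRoot ζ 7)
    (v : (𝓞 K)ˣ) (hv : ∃ n : ℤ, ((7 : ℕ) : 𝓞 K) ∣ (v : 𝓞 K) - n) : ∃ w : (𝓞 K)ˣ, v = w ^ 7 :=
  kummer_lemma_concrete (p := 7) hζ (by norm_num) (r := 3) (by norm_num)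
    (fun i k => tbl V7 i k) (fun k j => tbl N7 k j)
    (by decide) (by decide) v hv

def V11 : List (List ℕ) := [[1, 10, 1, 10, 1, 10, 1, 10, 1], [6, 8, 7, 2, 10, 6, 8, 7, 2], [1, 7, 0, 5, 6, 7, 2, 3, 0], [7, 8, 1, 8, 7, 6, 4, 0, 0], [2, 0, 10, 3, 0, 6, 5, 6, 5]]
def N11 : List (List ℕ) := [[9, 6, 7, 0, 2], [1, 8, 7, 4, 2], [0, 0, 0, 0, 0], [9, 0, 1, 3, 1], [0, 0, 0, 0, 0], [0, 8, 5, 0, 1], [0, 0, 0, 0, 0], [9, 1, 5, 4, 9], [0, 0, 0, 0, 0]]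

theorem kummer_lemma_11 [Fact (Nat.Prime 11)] {K : Type*} [Field K] [NumberField K]
    [IsCyclotomicExtension {11} ℚ K] {ζ : K} (hζ : IsPrimitiveRoot ζ 11)
    (v : (𝓞 K)ˣ) (hv : ∃ n : ℤ, ((11 : ℕ) : 𝓞 K) ∣ (v : 𝓞 K) - n) : ∃ w : (𝓞 K)ˣ, v = w ^ 11 :=
  kummer_lemma_concrete (p := 11) hζ (by norm_num) (r := 5) (by norm_num)
    (fun i k => tbl V11 i k) (fun k j => tbl N11 k j)
    (by decide) (by decide) v hv

def V13 : List (List ℕ) := [[1, 12, 1, 12, 1, 12, 1, 12, 1, 12, 1], [7, 3, 5, 4, 11, 1, 6, 10, 8, 9, 2], [1, 4, 0, 3, 10, 2, 12, 9, 0, 10, 3], [8, 3, 11, 11, 1, 1, 11, 5, 4, 9, 4], [2, 0, 12, 6, 0, 2, 11, 4, 7, 3, 5], [9, 8, 3, 8, 9, 1, 6, 7, 6, 7, 6]]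
def N13 : List (List ℕ) := [[1, 10, 12, 7, 4, 4], [3, 2, 12, 11, 2, 1], [0, 0, 0, 0, 0, 0], [3, 10, 2, 9, 2, 2], [0, 0, 0, 0, 0, 0], [9, 7, 4, 9, 7, 11], [0, 0, 0, 0, 0, 0], [7, 11, 0, 6, 1, 1], [0, 0, 0, 0, 0, 0], [4, 6, 7, 11, 5, 2], [0, 0, 0, 0, 0, 0]]

theorem kummer_lemma_13 [Fact (Nat.Prime 13)] {K : Type*} [Field K] [NumberField K]
    [IsCyclotomicExtension {13} ℚ K] {ζ : K} (hζ : IsPrimitiveRoot ζ 13)
    (v : (𝓞 K)ˣ) (hv : ∃ n : ℤ, ((13 : ℕ) : 𝓞 K) ∣ (v : 𝓞 K) - n) : ∃ w : (𝓞 K)ˣ, v = w ^ 13 :=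
  kummer_lemma_concrete (p := 13) hζ (by norm_num) (r := 6) (by norm_num)
    (fun i k => tbl V13 i k) (fun k j => tbl N13 k j)
    (by decide) (by decide) v hv

end Fermat.Agent.KummerFLT
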