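import Fermat.Agent.KummerFLT.PIDGen

set_option autoImplicit false

/-!
# `ℤ[ζ_p]` is a PID for `p = 5, 7, 11, 13`
-/

namespace Fermat.Agent.KummerFLT

open Finset Polynomial NumberField InfinitePlace Ideal Real Module

lemma bound_aux (n : ℕ) (a b c : ℝ) (D : ℝ) (hc : 0 ≤ c) (ha : 0 ≤ a) (hD : 0 ≤ D) (hD' : D ≤ c ^ 2)
    (h : (4 / 3.14) ^ n * (a * c) < b) : (4 / π) ^ n * (a * √D) < b := by
  refine lt_of_le_of_lt ?_ h
  have h1 : √D ≤ c := by
    rw [Real.sqrt_le_left hc]; exact hD'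
  have h2 : 4 / π ≤ 4 / 3.14 := by
    apply div_le_div_of_nonneg_left (by norm_num) (by norm_num)
    exact Real.pi_gt_d2.le
  gcongr


theorem principal_11_23 {K : Type*} [Field K] [NumberField K] [IsCyclotomicExtension {11} ℚ K] :
    ∃ P ∈ primesOver (span {((23 : ℕ) : ℤ)}) (𝓞 K), Submodule.IsPrincipal P := by
  have : Fact (Nat.Prime 11) := ⟨by norm_num⟩
  have hcyc : cyclotomic 11 ℤ = ∑ i ∈ range 11, X ^ i := cyclotomic_prime ℤ 11
  refine principal_of_deg_one (p := 11) (IsCyclotomicExtension.zeta_spec 11 ℚ K) 23 (by norm_num) (4)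
    ((1) * X ^ 0 + (1) * X ^ 1 + (1) * X ^ 3)
    ((-2) * X ^ 0 + (-14) * X ^ 1 + (-17) * X ^ 2 + (-12) * X ^ 3 + (-5) * X ^ 4 + (-9) * X ^ 5 + (-10) * X ^ 6 + (-16) * X ^ 7 + (-6) * X ^ 8 + (-15) * X ^ 9)
    ((-25) * X ^ 0 + (9) * X ^ 1 + (-15) * X ^ 2)
    ((1) * X ^ 0 + (3) * X ^ 1 + (3) * X ^ 2 + (2) * X ^ 3 + (1) * X ^ 4 + (2) * X ^ 5 + (2) * X ^ 6 + (3) * X ^ 7 + (1) * X ^ 8 + (3) * X ^ 9)
    ((5) * X ^ 0 + (-2) * X ^ 1 + (3) * X ^ 2) ?_ ?_ ?_ ?_
  · rw [hcyc, eq_intCast C]; simp only [Finset.sum_range_succ, Finset.sum_range_zero]; push_cast; ring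
  · rw [hcyc, eq_intCast C]; simp only [Finset.sum_range_succ, Finset.sum_range_zero]; push_cast; ring
  · norm_num
  · rw [hcyc]; simp only [Finset.sum_range_succ, Finset.sum_range_zero, eval_add, eval_pow, eval_X, eval_zero]; norm_num


theorem principal_13_53 {K : Type*} [Field K] [NumberField K] [IsCyclotomicExtension {13} ℚ K] :
    ∃ P ∈ primesOver (span {((53 : ℕ) : ℤ)}) (𝓞 K), Submodule.IsPrincipal P := by
  have : Fact (Nat.Prime 13) := ⟨by norm_num⟩
  have hcyc : cyclotomic 13 ℤ = ∑ i ∈ range 13, X ^ i := cyclotomic_prime ℤ 13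
  refine principal_of_deg_one (p := 13) (IsCyclotomicExtension.zeta_spec 13 ℚ K) 53 (by norm_num) (-17)
    ((1) * X ^ 0 + (1) * X ^ 1 + (1) * X ^ 3)
    ((1) * X ^ 0 + (-24) * X ^ 1 + (-35) * X ^ 2 + (-25) * X ^ 3 + (-10) * X ^ 4 + (-14) * X ^ 5 + (-20) * X ^ 6 + (-29) * X ^ 7 + (-16) * X ^ 8 + (-23) * X ^ 9 + (-7) * X ^ 10 + (-36) * X ^ 11)
    ((-52) * X ^ 0 + (29) * X ^ 1 + (-36) * X ^ 2)
    ((1) * X ^ 0 + (-7) * X ^ 1 + (-11) * X ^ 2 + (-8) * X ^ 3 + (-3) * X ^ 4 + (-4) * X ^ 5 + (-6) * X ^ 6 + (-9) * X ^ 7 + (-5) * X ^ 8 + (-7) * X ^ 9 + (-2) * X ^ 10 + (-11) * X ^ 11)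
    ((-16) * X ^ 0 + (9) * X ^ 1 + (-11) * X ^ 2) ?_ ?_ ?_ ?_
  · rw [hcyc, eq_intCast C]; simp only [Finset.sum_range_succ, Finset.sum_range_zero]; push_cast; ring
  · rw [hcyc, eq_intCast C]; simp only [Finset.sum_range_succ, Finset.sum_range_zero]; push_cast; ring
  · norm_num
  · rw [hcyc]; simp only [Finset.sum_range_succ, Finset.sum_range_zero, eval_add, eval_pow, eval_X, eval_zero]; norm_num


theorem principal_13_131 {K : Type*} [Field K] [NumberField K] [IsCyclotomicExtension {13} ℚ K] :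
    ∃ P ∈ primesOver (span {((131 : ℕ) : ℤ)}) (𝓞 K), Submodule.IsPrincipal P := by
  have : Fact (Nat.Prime 13) := ⟨by norm_num⟩
  have hcyc : cyclotomic 13 ℤ = ∑ i ∈ range 13, X ^ i := cyclotomic_prime ℤ 13
  refine principal_of_deg_one (p := 13) (IsCyclotomicExtension.zeta_spec 13 ℚ K) 131 (by norm_num) (-51)
    ((1) * X ^ 0 + (-1) * X ^ 1 + (-1) * X ^ 3)
    ((111) * X ^ 0 + (78) * X ^ 1 + (17) * X ^ 2 + (67) * X ^ 3 + (84) * X ^ 4 + (40) * X ^ 5 + (46) * X ^ 6 + (69) * X ^ 7 + (48) * X ^ 8 + (33) * X ^ 9 + (41) * X ^ 10 + (28) * X ^ 11)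
    ((-20) * X ^ 0 + (-13) * X ^ 1 + (-28) * X ^ 2)
    ((43) * X ^ 0 + (31) * X ^ 1 + (7) * X ^ 2 + (26) * X ^ 3 + (33) * X ^ 4 + (16) * X ^ 5 + (18) * X ^ 6 + (27) * X ^ 7 + (19) * X ^ 8 + (13) * X ^ 9 + (16) * X ^ 10 + (11) * X ^ 11)
    ((-8) * X ^ 0 + (-5) * X ^ 1 + (-11) * X ^ 2) ?_ ?_ ?_ ?_
  · rw [hcyc, eq_intCast C]; simp only [Finset.sum_range_succ, Finset.sum_range_zero]; push_cast; ring
  · rw [hcyc, eq_intCast C]; simp only [Finset.sum_range_succ, Finset.sum_range_zero]; push_cast; ring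
  · norm_num
  · rw [hcyc]; simp only [Finset.sum_range_succ, Finset.sum_range_zero, eval_add, eval_pow, eval_X, eval_zero]; norm_num


theorem principal_13_79 {K : Type*} [Field K] [NumberField K] [IsCyclotomicExtension {13} ℚ K] :
    ∃ P ∈ primesOver (span {((79 : ℕ) : ℤ)}) (𝓞 K), Submodule.IsPrincipal P := by
  have : Fact (Nat.Prime 13) := ⟨by norm_num⟩
  have hcyc : cyclotomic 13 ℤ = ∑ i ∈ range 13, X ^ i := cyclotomic_prime ℤ 13
  refine principal_of_deg_one (p := 13) (IsCyclotomicExtension.zeta_spec 13 ℚ K) 79 (by norm_num) (-15)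
    ((1) * X ^ 0 + (1) * X ^ 1 + (-1) * X ^ 4)
    ((24) * X ^ 0 + (-25) * X ^ 1 + (-27) * X ^ 2 + (10) * X ^ 3 + (-3) * X ^ 4 + (-39) * X ^ 5 + (-5) * X ^ 6 + (-2) * X ^ 7 + (-18) * X ^ 8 + (-38) * X ^ 9 + (16) * X ^ 10 + (-35) * X ^ 11)
    ((-55) * X ^ 0 + (54) * X ^ 1 + (-51) * X ^ 2 + (35) * X ^ 3)
    ((5) * X ^ 0 + (-4) * X ^ 1 + (-5) * X ^ 2 + (2) * X ^ 3 + (-7) * X ^ 5 + (-1) * X ^ 6 + (-3) * X ^ 8 + (-7) * X ^ 9 + (3) * X ^ 10 + (-6) * X ^ 11)
    ((-10) * X ^ 0 + (10) * X ^ 1 + (-9) * X ^ 2 + (6) * X ^ 3) ?_ ?_ ?_ ?_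
  · rw [hcyc, eq_intCast C]; simp only [Finset.sum_range_succ, Finset.sum_range_zero]; push_cast; ring
  · rw [hcyc, eq_intCast C]; simp only [Finset.sum_range_succ, Finset.sum_range_zero]; push_cast; ring
  · norm_num
  · rw [hcyc]; simp only [Finset.sum_range_succ, Finset.sum_range_zero, eval_add, eval_pow, eval_X, eval_zero]; norm_num


theorem principal_13_157 {K : Type*} [Field K] [NumberField K] [IsCyclotomicExtension {13} ℚ K] :
    ∃ P ∈ primesOver (span {((157 : ℕ) : ℤ)}) (𝓞 K), Submodule.IsPrincipal P := by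
  have : Fact (Nat.Prime 13) := ⟨by norm_num⟩
  have hcyc : cyclotomic 13 ℤ = ∑ i ∈ range 13, X ^ i := cyclotomic_prime ℤ 13
  refine principal_of_deg_one (p := 13) (IsCyclotomicExtension.zeta_spec 13 ℚ K) 157 (by norm_num) (75)
    ((1) * X ^ 0 + (-1) * X ^ 1 + (1) * X ^ 2 + (1) * X ^ 4)
    ((89) * X ^ 0 + (86) * X ^ 1 + (42) * X ^ 2 + (77) * X ^ 3 + (67) * X ^ 4 + (25) * X ^ 5 + (37) * X ^ 6 + (56) * X ^ 7 + (73) * X ^ 8 + (113) * X ^ 9 + (124) * X ^ 10 + (76) * X ^ 11)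
    ((-68) * X ^ 0 + (65) * X ^ 1 + (48) * X ^ 2 + (76) * X ^ 3)
    ((-43) * X ^ 0 + (-41) * X ^ 1 + (-20) * X ^ 2 + (-37) * X ^ 3 + (-32) * X ^ 4 + (-12) * X ^ 5 + (-18) * X ^ 6 + (-27) * X ^ 7 + (-35) * X ^ 8 + (-54) * X ^ 9 + (-59) * X ^ 10 + (-36) * X ^ 11)
    ((32) * X ^ 0 + (-31) * X ^ 1 + (-23) * X ^ 2 + (-36) * X ^ 3) ?_ ?_ ?_ ?_
  · rw [hcyc, eq_intCast C]; simp only [Finset.sum_range_succ, Finset.sum_range_zero]; push_cast; ring
  · rw [hcyc, eq_intCast C]; simp only [Finset.sum_range_succ, Finset.sum_range_zero]; push_cast; ring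
  · norm_num
  · rw [hcyc]; simp only [Finset.sum_range_succ, Finset.sum_range_zero, eval_add, eval_pow, eval_X, eval_zero]; norm_num

theorem pid_7 {K : Type*} [Field K] [NumberField K] [IsCyclotomicExtension {7} ℚ K] :
    IsPrincipalIdealRing (𝓞 K) := by
  have : Fact (Nat.Prime 7) := ⟨by norm_num⟩
  apply pid_of_bound (p := 7) 4
  · rw [IsCyclotomicExtension.Rat.discr_prime 7 K, IsCyclotomicExtension.finrank (n := 7) K
      (cyclotomic.irreducible_rat (by simp)), IsCyclotomicExtension.Rat.nrComplexPlaces_eq_totient_div_two 7,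
      Nat.totient_prime (by norm_num)]
    have hf : ((7 - 1 : ℕ).factorial : ℝ) = 720 := by norm_num [Nat.factorial]
    rw [hf]
    refine bound_aux _ _ _ 129.7 _ (by norm_num) (by positivity) (by positivity) ?_ ?_
    · norm_num
    · norm_num
  · intro q hq hq7 hq4 ⟨k, hk, hk1, hk2⟩
    exfalso
    have h1 : q ^ k = 1 := by omega
    have h2 : 1 < q ^ k := Nat.one_lt_pow (by omega) hq.one_lt
    omega


lemma norm_cubic_aux : ∀ a b c : ZMod 3,
    a * ((a + c) * (a + c) - (b + c) * b) + c * ((b + c) * c - b * (a + c)) + b * (b * b - (a + c) * c) = 0 →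
    a = 0 ∧ b = 0 ∧ c = 0 := by decide

theorem principal_13_3 {K : Type*} [Field K] [NumberField K] [IsCyclotomicExtension {13} ℚ K] :
    ∃ P ∈ primesOver (span {((3 : ℕ) : ℤ)}) (𝓞 K), Submodule.IsPrincipal P := by
  have : Fact (Nat.Prime 13) := ⟨by norm_num⟩
  have hcyc : cyclotomic 13 ℤ = ∑ i ∈ range 13, X ^ i := cyclotomic_prime ℤ 13
  have hζ := IsCyclotomicExtension.zeta_spec 13 ℚ K
  set z := hζ.toInteger with hz
  set f : ℤ[X] := X ^ 3 - X - 1 with hf
  set α : 𝓞 K := z ^ 3 - z - 1 with hα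
  have hsum : ∑ i ∈ range 13, z ^ i = 0 := by
    have := aeval_cyclotomic hζ
    rw [hcyc, map_sum] at this
    simpa using this
  have hqα : α ∣ (3 : 𝓞 K) := by
    refine ⟨-(-1 - z ^ 2 - z ^ 3 - 2 * z ^ 5 - z ^ 7 - 2 * z ^ 8 + z ^ 9 - 3 * z ^ 10), ?_⟩
    calc (3 : 𝓞 K) = 3 + (∑ i ∈ range 13, z ^ i) * (-4 + 3 * z) := by rw [hsum]; ring
      _ = _ := by
        rw [hα]
        simp only [Finset.sum_range_succ, Finset.sum_range_zero]
        ring
  have hmonic : f.Monic := by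
    rw [hf]; monicity!
  have hdeg : f.natDegree = 3 := by
    rw [hf]; compute_degree!
  have hfz : aeval z f = α := by rw [hf, hα]; simp
  have hdiv : ∀ x : 𝓞 K, ∃ a b c : ℤ, α ∣ x - (a + b * z + c * z ^ 2) := by
    intro x
    obtain ⟨F, hF⟩ := exists_poly hζ x
    have h1 := modByMonic_add_div F f
    have h2 : (F %ₘ f).natDegree < 3 := by
      rw [← hdeg]; apply natDegree_modByMonic_lt _ hmonic
      intro h; rw [h] at hdeg; simp at hdeg
    have h3 := (F %ₘ f).as_sum_range' 3 h2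
    refine ⟨(F %ₘ f).coeff 0, (F %ₘ f).coeff 1, (F %ₘ f).coeff 2, aeval z (F /ₘ f), ?_⟩
    have h4 := congrArg (aeval z) h1
    rw [map_add, map_mul, hfz, hF] at h4
    rw [← h4, h3]
    simp only [Finset.sum_range_succ, Finset.sum_range_zero, map_add, aeval_monomial, coeff_monomial, coeff_add]
    simp
  have key : ∀ (P : Ideal (𝓞 K)), α ∈ P → ∀ a b c : ℤ, ((a : 𝓞 K) + b * z + c * z ^ 2) ∈ P →
      (((a * ((a + c) * (a + c) - (b + c) * b) + c * ((b + c) * c - b * (a + c))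
        + b * (b * b - (a + c) * c) : ℤ)) : 𝓞 K) ∈ P := by
    intro P hα' a b c h
    have h1 : (((a * ((a + c) * (a + c) - (b + c) * b) + c * ((b + c) * c - b * (a + c))
        + b * (b * b - (a + c) * c) : ℤ)) : 𝓞 K) =
        ((a : 𝓞 K) + b * z + c * z ^ 2) * (((a + c) * (a + c) - (b + c) * b) +
          ((b + c) * c - b * (a + c)) * z + (b * b - (a + c) * c) * z ^ 2)
        - α * ((b * (b * b - (a + c) * c) + c * ((b + c) * c - b * (a + c))) + c * (b * b - (a + c) * c) * z) := by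
      rw [hα]; push_cast; ring
    rw [h1]
    exact P.sub_mem (P.mul_mem_right _ h) (P.mul_mem_right _ hα')
  have hnu : ¬ IsUnit α := by
    intro hu
    obtain ⟨y, hy⟩ := isUnit_iff_exists_inv.mp hu
    obtain ⟨G, hG⟩ := exists_poly hζ y
    have h1 : aeval z (f * G - 1) = 0 := by
      rw [map_sub, map_mul, hG, map_one, sub_eq_zero, hfz]; exact hy
    obtain ⟨H, hH⟩ := cyclotomic_dvd_of_aeval_eq_zero hζ h1
    -- modulo 3, `f ∣ Φ`, so `f ∣ 1`
    have h3 := congrArg (Polynomial.map (Int.castRingHom (ZMod 3))) hH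
    have h4 : Polynomial.map (Int.castRingHom (ZMod 3)) f ∣
        Polynomial.map (Int.castRingHom (ZMod 3)) (cyclotomic 13 ℤ) := by
      have h5 : cyclotomic 13 ℤ * (-4 + 3 * X) = f * (-(-1 - X ^ 2 - X ^ 3 - 2 * X ^ 5 - X ^ 7 - 2 * X ^ 8 + X ^ 9 - 3 * X ^ 10)) - 3 := by
        rw [hcyc, hf]
        simp only [Finset.sum_range_succ, Finset.sum_range_zero]
        ring
      have h6 := congrArg (Polynomial.map (Int.castRingHom (ZMod 3))) h5
      rw [Polynomial.map_mul, Polynomial.map_sub, Polynomial.map_mul] at h6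
      have h7 : Polynomial.map (Int.castRingHom (ZMod 3)) (3 : ℤ[X]) = 0 := by
        have : (3 : ℤ[X]) = C 3 := rfl
        rw [this, Polynomial.map_C]
        have : (Int.castRingHom (ZMod 3)) 3 = 0 := by decide
        rw [this, C_0]
      have h8 : Polynomial.map (Int.castRingHom (ZMod 3)) (-4 + 3 * X : ℤ[X]) = -1 := by
        rw [Polynomial.map_add, Polynomial.map_mul, h7, zero_mul, add_zero]
        have : (-4 : ℤ[X]) = C (-4) := by rw [C_neg]; rfl
        rw [this, Polynomial.map_C]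
        have : (Int.castRingHom (ZMod 3)) (-4) = -1 := by decide
        rw [this]; simp
      rw [h7, h8, sub_zero] at h6
      refine ⟨-(Polynomial.map (Int.castRingHom (ZMod 3)) (-(-1 - X ^ 2 - X ^ 3 - 2 * X ^ 5 - X ^ 7 - 2 * X ^ 8 + X ^ 9 - 3 * X ^ 10))), ?_⟩
      rw [mul_neg, ← h6]; ring
    have h5 : Polynomial.map (Int.castRingHom (ZMod 3)) f ∣ 1 := by
      rw [Polynomial.map_sub, Polynomial.map_mul, Polynomial.map_mul, Polynomial.map_one] at h3
      have : (1 : (ZMod 3)[X]) = Polynomial.map (Int.castRingHom (ZMod 3)) f * Polynomial.map (Int.castRingHom (ZMod 3)) G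
        - Polynomial.map (Int.castRingHom (ZMod 3)) (cyclotomic 13 ℤ) * Polynomial.map (Int.castRingHom (ZMod 3)) H := by
        rw [← h3]; ring
      rw [this]
      exact dvd_sub (dvd_mul_right _ _) (Dvd.dvd.mul_right h4 _)
    have : Fact (Nat.Prime 3) := ⟨by norm_num⟩
    have h6 := natDegree_eq_zero_of_isUnit (isUnit_of_dvd_one h5)
    rw [hmonic.natDegree_map, hdeg] at h6
    omega
  obtain ⟨P, hP, hle⟩ := Ideal.exists_le_maximal (span {α}) (by
    rw [Ne, span_singleton_eq_top]; exact hnu)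
  have hqP : ((3 : ℕ) : 𝓞 K) ∈ P := hle (mem_span_singleton.mpr (by exact_mod_cast hqα))
  have hover : P.LiesOver (span {((3 : ℕ) : ℤ)}) := by
    rw [liesOver_iff]
    refine IsMaximal.eq_of_le (span_nat_isMaximal (by norm_num)) (IsPrime.ne_top (hP.isPrime.under ℤ)) ?_
    rw [span_singleton_le_iff_mem, mem_comap, algebraMap_int_eq, map_natCast]
    exact hqP
  refine ⟨P, ⟨hP.isPrime, hover⟩, ?_⟩
  have hPeq : P = span {α} := by
    refine le_antisymm (fun x hx => ?_) hle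
    obtain ⟨a, b, c, habc⟩ := hdiv x
    have h1 : ((a : 𝓞 K) + b * z + c * z ^ 2) ∈ P := by
      have : ((a : 𝓞 K) + b * z + c * z ^ 2) = x - (x - (a + b * z + c * z ^ 2)) := by ring
      rw [this]
      exact P.sub_mem hx (hle (mem_span_singleton.mpr habc))
    have h2 := key P (hle (mem_span_singleton_self α)) a b c h1
    have h4 : (a * ((a + c) * (a + c) - (b + c) * b) + c * ((b + c) * c - b * (a + c))
        + b * (b * b - (a + c) * c) : ℤ) ∈ span {((3 : ℕ) : ℤ)} := by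
      rw [hover.over, mem_comap]; simpa using h2
    rw [mem_span_singleton, ← ZMod.intCast_zmod_eq_zero_iff_dvd] at h4
    push_cast at h4
    obtain ⟨ha, hb, hc⟩ := norm_cubic_aux _ _ _ h4
    rw [ZMod.intCast_zmod_eq_zero_iff_dvd] at ha hb hc
    obtain ⟨a', rfl⟩ := ha
    obtain ⟨b', rfl⟩ := hb
    obtain ⟨c', rfl⟩ := hc
    rw [mem_span_singleton]
    have : x = (x - (((((3 : ℕ) : ℤ) * a' : ℤ) : 𝓞 K) + ((((3 : ℕ) : ℤ) * b' : ℤ) : 𝓞 K) * z
      + ((((3 : ℕ) : ℤ) * c' : ℤ) : 𝓞 K) * z ^ 2)) + (3 : 𝓞 K) * (a' + b' * z + c' * z ^ 2) := by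
      push_cast; ring
    rw [this]
    exact dvd_add habc (Dvd.dvd.mul_right hqα _)
  rw [hPeq]
  exact ⟨⟨_, rfl⟩⟩

theorem pid_11 {K : Type*} [Field K] [NumberField K] [IsCyclotomicExtension {11} ℚ K] :
    IsPrincipalIdealRing (𝓞 K) := by
  have : Fact (Nat.Prime 11) := ⟨by norm_num⟩
  apply pid_of_bound (p := 11) 66
  · rw [IsCyclotomicExtension.Rat.discr_prime 11 K, IsCyclotomicExtension.finrank (n := 11) K
      (cyclotomic.irreducible_rat (by simp)), IsCyclotomicExtension.Rat.nrComplexPlaces_eq_totient_div_two 11,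
      Nat.totient_prime (by norm_num)]
    have hf : ((11 - 1 : ℕ).factorial : ℝ) = 3628800 := by norm_num [Nat.factorial]
    rw [hf]
    refine bound_aux _ _ _ 48559 _ (by norm_num) (by positivity) (by positivity) ?_ ?_
    · norm_num
    · norm_num
  · intro q hq hq11 hqB ⟨k, hk, hk1, hk2⟩
    have h0 : q = 23 := by
      have h1 : ∀ q ∈ Finset.range 67, ∀ k ∈ Finset.range 8, 1 ≤ k → q ^ k ≤ 66 → q ^ k % 11 = 1 → q = 23 ∨ q = 1 ∨
          ∃ d ∈ Finset.range q, 2 ≤ d ∧ d ∣ q := by decide +kernel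
      have hk8 : k < 8 := by
        by_contra h
        have := Nat.pow_le_pow_left hq.two_le 8
        have := Nat.pow_le_pow_right hq.pos (not_lt.mp h)
        omega
      rcases h1 q (Finset.mem_range.mpr (by omega)) k (Finset.mem_range.mpr hk8) hk hk1 hk2 with h | h | ⟨d, hd, hd2, hdq⟩
      · exact h
      · exact absurd h hq.one_lt.ne'
      · rw [Finset.mem_range] at hd
        rcases (Nat.dvd_prime hq).mp hdq with h | h <;> omega
    subst h0
    exact principal_11_23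

theorem pid_13 {K : Type*} [Field K] [NumberField K] [IsCyclotomicExtension {13} ℚ K] :
    IsPrincipalIdealRing (𝓞 K) := by
  have : Fact (Nat.Prime 13) := ⟨by norm_num⟩
  apply pid_of_bound (p := 13) 312
  · rw [IsCyclotomicExtension.Rat.discr_prime 13 K, IsCyclotomicExtension.finrank (n := 13) K
      (cyclotomic.irreducible_rat (by simp)), IsCyclotomicExtension.Rat.nrComplexPlaces_eq_totient_div_two 13,
      Nat.totient_prime (by norm_num)]
    have hf : ((13 - 1 : ℕ).factorial : ℝ) = 479001600 := by norm_num [Nat.factorial]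
    rw [hf]
    refine bound_aux _ _ _ 1338716 _ (by norm_num) (by positivity) (by positivity) ?_ ?_
    · norm_num
    · norm_num
  · intro q hq hq13 hqB ⟨k, hk, hk1, hk2⟩
    have h0 : q = 3 ∨ q = 53 ∨ q = 79 ∨ q = 131 ∨ q = 157 := by
      have h1 : ∀ q ∈ Finset.range 313, ∀ k ∈ Finset.range 9, 1 ≤ k → q ^ k ≤ 312 → q ^ k % 13 = 1 →
          (q = 3 ∨ q = 53 ∨ q = 79 ∨ q = 131 ∨ q = 157) ∨ q = 1 ∨
          ∃ d ∈ Finset.range q, 2 ≤ d ∧ d ∣ q := by decide +kernel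
      have hk8 : k < 9 := by
        by_contra h
        have := Nat.pow_le_pow_left hq.two_le 9
        have := Nat.pow_le_pow_right hq.pos (not_lt.mp h)
        omega
      rcases h1 q (Finset.mem_range.mpr (by omega)) k (Finset.mem_range.mpr hk8) hk hk1 hk2 with h | h | ⟨d, hd, hd2, hdq⟩
      · exact h
      · exact absurd h hq.one_lt.ne'
      · rw [Finset.mem_range] at hd
        rcases (Nat.dvd_prime hq).mp hdq with h | h <;> omega
    rcases h0 with rfl | rfl | rfl | rfl | rfl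
    · exact principal_13_3
    · exact principal_13_53
    · exact principal_13_79
    · exact principal_13_131
    · exact principal_13_157

theorem pid_5 {K : Type*} [Field K] [NumberField K] [IsCyclotomicExtension {5} ℚ K] :
    IsPrincipalIdealRing (𝓞 K) := IsCyclotomicExtension.Rat.five_pid K

end Fermat.Agent.KummerFLT
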