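import Fermat.Agent.KummerFLT.SophieGermain
import Fermat.Agent.KummerFLT.CaseII
import Fermat.Agent.KummerFLT.KummerConcrete
import Fermat.Agent.KummerFLT.PIDConcrete

set_option autoImplicit false

/-!
# Fermat's last theorem for the exponents `5, 7, 11, 13`
-/

namespace Fermat.Agent.KummerFLT

open Polynomial NumberField

lemma kummerSetup {p : ℕ} [hpf : Fact p.Prime] {K : Type*} [Field K] [NumberField K]
    [IsCyclotomicExtension {p} ℚ K] {ζ : K} (hζ : IsPrimitiveRoot ζ p) (hodd : Odd p)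
    (hk : ∀ v : (𝓞 K)ˣ, (∃ n : ℤ, (p : 𝓞 K) ∣ (v : 𝓞 K) - n) → ∃ w : (𝓞 K)ˣ, v = w ^ p) :
    KummerSetup p (𝓞 K) hζ.toInteger where
  hp := hpf.out
  odd := hodd
  prim := hζ.toInteger_isPrimitiveRoot
  prime := hζ.zeta_sub_one_prime'
  assoc := IsCyclotomicExtension.Rat.associated_zeta_sub_one_pow_prime p hζ
  res := by
    intro x
    obtain ⟨F, hF⟩ := exists_poly hζ x
    obtain ⟨Q, hQ⟩ := X_sub_C_dvd_sub_C_eval (a := (1 : ℤ)) (p := F)
    refine ⟨F.eval 1, aeval hζ.toInteger Q, ?_⟩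
    have h2 := congrArg (aeval hζ.toInteger) hQ
    rw [map_sub, map_mul, map_sub, aeval_X, aeval_C, aeval_C, hF] at h2
    simpa using h2
  int := fun n hn => (IsCyclotomicExtension.Rat.zeta_sub_one_dvd_intCast_iff' p hζ).mp hn
  kummer := hk

section

variable {p : ℕ} {R : Type*} [CommRing R] [IsDomain R] {ζ : R}

theorem caseII (S : KummerSetup p R ζ) [IsPrincipalIdealRing R] {x y z : ℤ} (hz0 : z ≠ 0)
    (hxy : IsCoprime x y) (hyz : IsCoprime y z) (hpz : (p : ℤ) ∣ z)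
    (h : x ^ p + y ^ p + z ^ p = 0) : False := by
  have hp := S.hp
  have hpZ : Prime (p : ℤ) := Nat.prime_iff_prime_int.mp hp
  have hfin : FiniteMultiplicity (p : ℤ) z := by
    rw [Int.finiteMultiplicity_iff]
    exact ⟨by simpa using hp.one_lt.ne', hz0⟩
  obtain ⟨c, hc, hcn⟩ := hfin.exists_eq_pow_mul_and_not_dvd
  set k := multiplicity (p : ℤ) z with hk
  have hk1 : 1 ≤ k := by
    by_contra hlt
    have : k = 0 := by omega
    rw [this, pow_zero, one_mul] at hc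
    exact hcn (hc ▸ hpz)
  obtain ⟨u, hu⟩ := S.assoc
  have hm : ∃ m, m + 1 = (p - 1) * k := by
    refine ⟨(p - 1) * k - 1, ?_⟩
    have h1 : 1 ≤ p - 1 := by have := hp.two_le; omega
    have h2 : 1 ≤ (p - 1) * k := Nat.one_le_iff_ne_zero.mpr (Nat.mul_ne_zero (by omega) (by omega))
    omega
  obtain ⟨m, hm⟩ := hm
  have hy' : ¬ (ζ - 1) ∣ (y : R) := by
    intro hd
    have := S.int _ hd
    exact hpZ.not_isUnit (hyz.isUnit_of_dvd' this hpz)
  have hc' : ¬ (ζ - 1) ∣ ((-c : ℤ) : R) := by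
    intro hd
    have := S.int _ hd
    rw [dvd_neg] at this
    exact hcn this
  refine S.no_solution m (x : R) (y : R) ((-c : ℤ) : R) ((u ^ k) ^ p) ?_ hy' hc' ?_
  · exact hxy.map (Int.castRingHom R)
  · rw [hm]
    have h1 : ((x ^ p + y ^ p : ℤ) : R) = (((-z) ^ p : ℤ) : R) := by
      congr 1
      rw [S.odd.neg_pow]; linarith
    push_cast at h1
    rw [h1]
    have h2 : (z : R) = (p : R) ^ k * c := by
      have := congrArg (Int.cast : ℤ → R) hc
      push_cast at this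
      exact this
    rw [h2, ← hu, pow_mul]
    push_cast
    rw [← mul_pow]
    congr 1
    ring

theorem flt_coprime (S : KummerSetup p R ζ) [IsPrincipalIdealRing R] {q : ℕ} (hq : q.Prime)
    (h1 : ∀ x y z : ZMod q, x ^ p + y ^ p + z ^ p = 0 → x = 0 ∨ y = 0 ∨ z = 0)
    (h2 : ∀ x : ZMod q, x ^ p ≠ (p : ℕ)) {x y z : ℤ} (hx0 : x ≠ 0) (hy0 : y ≠ 0) (hz0 : z ≠ 0)
    (hxy : IsCoprime x y) (hyz : IsCoprime y z) (hzx : IsCoprime z x)
    (h : x ^ p + y ^ p + z ^ p = 0) : False := by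
  by_cases hz : (p : ℤ) ∣ z
  · exact caseII S hz0 hxy hyz hz h
  by_cases hx : (p : ℤ) ∣ x
  · exact caseII S hx0 hyz hzx hx (by linarith)
  by_cases hy : (p : ℤ) ∣ y
  · exact caseII S hy0 hzx hxy hy (by linarith)
  exact caseI_of_auxiliary S.hp S.odd hq h1 h2 hxy hyz hzx h hx hy hz

end

theorem flt_5 {x y z : ℤ} (hx0 : x ≠ 0) (hy0 : y ≠ 0) (hz0 : z ≠ 0)
    (hxy : IsCoprime x y) (hyz : IsCoprime y z) (hzx : IsCoprime z x)
    (h : x ^ 5 + y ^ 5 + z ^ 5 = 0) : False := by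
  have : Fact (Nat.Prime 5) := ⟨by norm_num⟩
  have : IsCyclotomicExtension {5} ℚ (CyclotomicField 5 ℚ) :=
    CyclotomicField.isCyclotomicExtension 5 ℚ
  have hζ := IsCyclotomicExtension.zeta_spec 5 ℚ (CyclotomicField 5 ℚ)
  have : IsPrincipalIdealRing (𝓞 (CyclotomicField 5 ℚ)) := pid_5
  exact flt_coprime (kummerSetup hζ (by decide) (kummer_lemma_5 hζ)) (q := 11) (by norm_num)
    aux_5_11 aux_5_11' hx0 hy0 hz0 hxy hyz hzx h

theorem flt_7 {x y z : ℤ} (hx0 : x ≠ 0) (hy0 : y ≠ 0) (hz0 : z ≠ 0)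
    (hxy : IsCoprime x y) (hyz : IsCoprime y z) (hzx : IsCoprime z x)
    (h : x ^ 7 + y ^ 7 + z ^ 7 = 0) : False := by
  have : Fact (Nat.Prime 7) := ⟨by norm_num⟩
  have : IsCyclotomicExtension {7} ℚ (CyclotomicField 7 ℚ) :=
    CyclotomicField.isCyclotomicExtension 7 ℚ
  have hζ := IsCyclotomicExtension.zeta_spec 7 ℚ (CyclotomicField 7 ℚ)
  have : IsPrincipalIdealRing (𝓞 (CyclotomicField 7 ℚ)) := pid_7
  exact flt_coprime (kummerSetup hζ (by decide) (kummer_lemma_7 hζ)) (q := 29) (by norm_num)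
    aux_7_29 aux_7_29' hx0 hy0 hz0 hxy hyz hzx h

theorem flt_11 {x y z : ℤ} (hx0 : x ≠ 0) (hy0 : y ≠ 0) (hz0 : z ≠ 0)
    (hxy : IsCoprime x y) (hyz : IsCoprime y z) (hzx : IsCoprime z x)
    (h : x ^ 11 + y ^ 11 + z ^ 11 = 0) : False := by
  have : Fact (Nat.Prime 11) := ⟨by norm_num⟩
  have : IsCyclotomicExtension {11} ℚ (CyclotomicField 11 ℚ) :=
    CyclotomicField.isCyclotomicExtension 11 ℚ
  have hζ := IsCyclotomicExtension.zeta_spec 11 ℚ (CyclotomicField 11 ℚ)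
  have : IsPrincipalIdealRing (𝓞 (CyclotomicField 11 ℚ)) := pid_11
  exact flt_coprime (kummerSetup hζ (by decide) (kummer_lemma_11 hζ)) (q := 23) (by norm_num)
    aux_11_23 aux_11_23' hx0 hy0 hz0 hxy hyz hzx h

theorem flt_13 {x y z : ℤ} (hx0 : x ≠ 0) (hy0 : y ≠ 0) (hz0 : z ≠ 0)
    (hxy : IsCoprime x y) (hyz : IsCoprime y z) (hzx : IsCoprime z x)
    (h : x ^ 13 + y ^ 13 + z ^ 13 = 0) : False := by
  have : Fact (Nat.Prime 13) := ⟨by norm_num⟩
  have : IsCyclotomicExtension {13} ℚ (CyclotomicField 13 ℚ) :=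
    CyclotomicField.isCyclotomicExtension 13 ℚ
  have hζ := IsCyclotomicExtension.zeta_spec 13 ℚ (CyclotomicField 13 ℚ)
  have : IsPrincipalIdealRing (𝓞 (CyclotomicField 13 ℚ)) := pid_13
  exact flt_coprime (kummerSetup hζ (by decide) (kummer_lemma_13 hζ)) (q := 53) (by norm_num)
    aux_13_53 aux_13_53' hx0 hy0 hz0 hxy hyz hzx h

end Fermat.Agent.KummerFLT
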