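import Fermat.Agent.KummerFLT.FLT
import Fermat.Prelude.Def_FLTPrelim_FreyPackage

set_option autoImplicit false

/-!
# There is no Frey package with exponent `5, 7, 11, 13`
-/

namespace Fermat.Agent.KummerFLT

lemma FreyPackage_coprime (P : FreyPackage) :
    IsCoprime P.a P.b ∧ IsCoprime P.b (-P.c) ∧ IsCoprime (-P.c) P.a := by
  refine ⟨?_, ?_, ?_⟩
  · rw [← gcd_isUnit_iff, P.hgcdab]; exact isUnit_one
  · rw [IsCoprime.neg_right_iff, ← gcd_isUnit_iff, P.hgcdbc]; exact isUnit_one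
  · rw [IsCoprime.neg_left_iff, isCoprime_comm, ← gcd_isUnit_iff, P.hgcdac]; exact isUnit_one

lemma FreyPackage_sum (P : FreyPackage) : P.a ^ P.p + P.b ^ P.p + (-P.c) ^ P.p = 0 := by
  rw [P.hp_odd.neg_pow, P.hFLT]; ring

theorem frey_p_ne_5 (P : FreyPackage) : P.p ≠ 5 := by
  intro hp
  obtain ⟨h1, h2, h3⟩ := FreyPackage_coprime P
  have h := FreyPackage_sum P
  rw [hp] at h
  exact flt_5 P.ha0 P.hb0 (neg_ne_zero.mpr P.hc0) h1 h2 h3 h

theorem frey_p_ne_7 (P : FreyPackage) : P.p ≠ 7 := by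
  intro hp
  obtain ⟨h1, h2, h3⟩ := FreyPackage_coprime P
  have h := FreyPackage_sum P
  rw [hp] at h
  exact flt_7 P.ha0 P.hb0 (neg_ne_zero.mpr P.hc0) h1 h2 h3 h

theorem frey_p_ne_11 (P : FreyPackage) : P.p ≠ 11 := by
  intro hp
  obtain ⟨h1, h2, h3⟩ := FreyPackage_coprime P
  have h := FreyPackage_sum P
  rw [hp] at h
  exact flt_11 P.ha0 P.hb0 (neg_ne_zero.mpr P.hc0) h1 h2 h3 h

theorem frey_p_ne_13 (P : FreyPackage) : P.p ≠ 13 := by
  intro hp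
  obtain ⟨h1, h2, h3⟩ := FreyPackage_coprime P
  have h := FreyPackage_sum P
  rw [hp] at h
  exact flt_13 P.ha0 P.hb0 (neg_ne_zero.mpr P.hc0) h1 h2 h3 h

end Fermat.Agent.KummerFLT
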