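import Fermat.Agent.KummerFLT.LogDeriv

set_option autoImplicit false

namespace Fermat.Agent.KummerFLT

open Finset Polynomial NumberField

variable {p : ℕ} [hpf : Fact p.Prime] {K : Type*} [Field K] [NumberField K]
  [IsCyclotomicExtension {p} ℚ K] {ζ : K} (hζ : IsPrimitiveRoot ζ p)

omit [NumberField K] [IsCyclotomicExtension {p} ℚ K] in
lemma zetaUnit_aux : IsUnit hζ.toInteger := by
  exact hζ.toInteger_isPrimitiveRoot.isUnit hpf.out.ne_zero

/-- `ζ` as a unit -/
noncomputable def zetaU : (𝓞 K)ˣ := (zetaUnit_aux hζ).unit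

omit [NumberField K] [IsCyclotomicExtension {p} ℚ K] in
lemma zetaU_coe : ((zetaU hζ : (𝓞 K)ˣ) : 𝓞 K) = hζ.toInteger := rfl

lemma decomp (hp3 : 3 ≤ p) (v : (𝓞 K)ˣ) :
    ∃ (j : Fin p) (e : Fin (Units.rank K) → Fin p) (w : (𝓞 K)ˣ),
      v = zetaU hζ ^ (j : ℕ) * (∏ i, Units.fundSystem K i ^ ((e i : ℕ))) * w ^ p := by
  have hodd : Odd p := hpf.out.odd_of_ne_two (by omega)
  obtain ⟨⟨t, a⟩, hta, -⟩ := Units.exist_unique_eq_mul_prod K v
  simp only at hta
  have ht : IsOfFinOrder ((t : (𝓞 K)ˣ) : K) := by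
    have h1 : IsOfFinOrder (t : (𝓞 K)ˣ) := t.2
    have h2 : IsOfFinOrder ((Units.coeHom (𝓞 K)) (t : (𝓞 K)ˣ)) := MonoidHom.isOfFinOrder _ h1
    exact MonoidHom.isOfFinOrder (algebraMap (𝓞 K) K : 𝓞 K →* K) h2
  obtain ⟨r, hr, hr'⟩ := hζ.exists_pow_or_neg_mul_pow_of_isOfFinOrder hodd ht
  have hr'' : ∃ s : (𝓞 K)ˣ, (t : (𝓞 K)ˣ) = zetaU hζ ^ r * s ^ p := by
    rcases hr' with h | h
    · refine ⟨1, ?_⟩
      rw [one_pow, mul_one]
      apply Units.ext
      apply RingOfIntegers.ext
      refine h.trans ?_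
      simp [zetaU_coe]
    · refine ⟨-1, ?_⟩
      rw [hodd.neg_one_pow]
      apply Units.ext
      apply RingOfIntegers.ext
      refine h.trans ?_
      simp [zetaU_coe]
  obtain ⟨s, hs⟩ := hr''
  have hp0 : (0 : ℤ) < p := by exact_mod_cast hpf.out.pos
  refine ⟨⟨r, hr⟩, fun i => ⟨(a i % p).toNat, ?_⟩, s * ∏ i, Units.fundSystem K i ^ (a i / p), ?_⟩
  · have h1 := Int.emod_lt_of_pos (a i) hp0
    have h2 := Int.emod_nonneg (a i) hp0.ne'
    omega
  · rw [hta, hs, mul_pow, ← Finset.prod_pow]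
    have h3 : ∀ i, Units.fundSystem K i ^ (a i) = Units.fundSystem K i ^ ((a i % p).toNat) *
        (Units.fundSystem K i ^ (a i / p)) ^ p := by
      intro i
      rw [← zpow_natCast (Units.fundSystem K i) ((a i % p).toNat), Int.toNat_of_nonneg
        (Int.emod_nonneg (a i) hp0.ne'), ← zpow_natCast (Units.fundSystem K i ^ (a i / p)) p,
        ← zpow_mul, ← zpow_add]
      congr 1
      rw [mul_comm]
      exact (Int.emod_add_mul_ediv (a i) p).symm
    rw [Finset.prod_congr rfl (fun i _ => h3 i), Finset.prod_mul_distrib]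
    generalize (∏ x, Units.fundSystem K x ^ (a x % (p : ℤ)).toNat) = A
    generalize (∏ i, (Units.fundSystem K i ^ (a i / (p : ℤ))) ^ p) = B
    generalize s ^ p = C
    generalize zetaU hζ ^ r = D
    rw [mul_assoc, mul_assoc]
    congr 1
    rw [← mul_assoc, mul_comm C A, mul_assoc]

lemma rank_eq (hp3 : 3 ≤ p) : Units.rank K + 1 = (p - 1) / 2 := by
  have hodd : Odd p := hpf.out.odd_of_ne_two (by omega)
  unfold Units.rank
  rw [InfinitePlace.card_eq_nrRealPlaces_add_nrComplexPlaces,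
    IsCyclotomicExtension.Rat.nrRealPlaces_eq_zero (n := p) K (by omega),
    IsCyclotomicExtension.Rat.nrComplexPlaces_eq_totient_div_two p,
    Nat.totient_prime hpf.out]
  obtain ⟨k, hk⟩ := hodd
  omega

/-- **Kummer's lemma**, given enough units independent under Kummer logarithms. -/
theorem kummer_lemma_of_klog (hp3 : 3 ≤ p) {r : ℕ} (hr : r = (p - 1) / 2)
    (u : Fin r → (𝓞 K)ˣ) (N : Fin (p - 2) → Fin r → ZMod p)
    (hN : ∀ i j, ∑ k : Fin (p - 2), klog hζ (u i) k * N k j = if i = j then 1 else 0)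
    (v : (𝓞 K)ˣ) (hv : ∃ n : ℤ, (p : 𝓞 K) ∣ (v : 𝓞 K) - n) : ∃ w : (𝓞 K)ˣ, v = w ^ p := by
  classical
  let L : (𝓞 K)ˣ →* Multiplicative (Fin r → ZMod p) :=
    { toFun := fun v => Multiplicative.ofAdd (fun j => ∑ k : Fin (p - 2), klog hζ v k * N k j)
      map_one' := by
        rw [ofAdd_eq_one]
        funext j
        simp only [Pi.zero_apply]
        exact Finset.sum_eq_zero (fun k _ => by rw [klog_one hζ hp3 k.2, zero_mul])
      map_mul' := by
        intro a b
        rw [← ofAdd_add]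
        congr 1
        funext j
        rw [Pi.add_apply, ← Finset.sum_add_distrib]
        refine Finset.sum_congr rfl (fun k _ => ?_)
        rw [klog_mul hζ hp3 _ _ k.2, add_mul] }
  have hLu : ∀ i, L (u i) = Multiplicative.ofAdd (Pi.single i 1) := by
    intro i
    change Multiplicative.ofAdd _ = _
    congr 1
    funext j
    rw [hN i j, Pi.single_apply]
    simp only [eq_comm]
  have hpow : ∀ w : (𝓞 K)ˣ, L (w ^ p) = 1 := by
    intro w
    rw [map_pow]
    apply Multiplicative.toAdd.injective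
    rw [toAdd_pow, toAdd_one]
    funext j
    simp
  have hLv : L v = 1 := by
    change Multiplicative.ofAdd _ = _
    rw [ofAdd_eq_one]
    funext j
    simp only [Pi.zero_apply]
    exact Finset.sum_eq_zero (fun k _ => by rw [klog_int hζ hp3 hv k.2, zero_mul])
  -- the finite parametrisation
  let Φ : Fin p × (Fin (Units.rank K) → Fin p) → Multiplicative (Fin r → ZMod p) := fun x =>
    L (zetaU hζ ^ (x.1 : ℕ) * (∏ i, Units.fundSystem K i ^ ((x.2 i : ℕ))))
  have hsurj : Function.Surjective Φ := by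
    intro w
    obtain ⟨j, e, w', hw'⟩ := decomp hζ hp3 (∏ i, u i ^ ((Multiplicative.toAdd w i).val))
    refine ⟨(j, e), ?_⟩
    have h1 : L (∏ i, u i ^ ((Multiplicative.toAdd w i).val)) = w := by
      rw [map_prod]
      apply Multiplicative.toAdd.injective
      rw [toAdd_prod]
      funext j
      rw [Finset.sum_apply]
      simp only [map_pow, hLu, toAdd_pow, toAdd_ofAdd, Pi.smul_apply, Pi.single_apply]
      simp
    rw [hw', map_mul, hpow, mul_one] at h1
    exact h1
  have hcard : Fintype.card (Fin p × (Fin (Units.rank K) → Fin p)) =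
      Fintype.card (Multiplicative (Fin r → ZMod p)) := by
    rw [Fintype.card_prod, Fintype.card_fun, Fintype.card_fin, Fintype.card_fin,
      Fintype.card_multiplicative, Fintype.card_fun, ZMod.card, Fintype.card_fin, ← pow_succ',
      rank_eq (K := K) hp3, hr]
  have hbij : Function.Bijective Φ :=
    (Fintype.bijective_iff_surjective_and_card Φ).mpr ⟨hsurj, hcard⟩
  obtain ⟨j, e, w, hw⟩ := decomp hζ hp3 v
  have h1 : Φ (j, e) = 1 := by
    have h2 := hLv
    rw [hw, map_mul, hpow, mul_one] at h2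
    exact h2
  have hp0 : 0 < p := hpf.out.pos
  have h2 : Φ (⟨0, hp0⟩, fun _ => ⟨0, hp0⟩) = 1 := by
    simp [Φ]
  have h3 := hbij.1 (h1.trans h2.symm)
  rw [Prod.mk.injEq] at h3
  refine ⟨w, ?_⟩
  rw [hw, h3.1, h3.2]
  simp

end Fermat.Agent.KummerFLT
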