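import Mathlib

set_option autoImplicit false

/-!
# Kummer's logarithmic derivative and Kummer's lemma
-/

namespace Fermat.Agent.KummerFLT

open Finset Polynomial NumberField

section PowerSeriesPart

variable {p : ℕ} [hpf : Fact p.Prime]

/-- `F ↦ F(1+X) mod p` as a power series -/
noncomputable def psi (p : ℕ) [Fact p.Prime] : ℤ[X] →+* PowerSeries (ZMod p) :=
  Polynomial.eval₂RingHom (Int.castRingHom (PowerSeries (ZMod p))) (1 + PowerSeries.X)

lemma psi_X : psi p X = 1 + PowerSeries.X := by simp [psi]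

lemma psi_C (n : ℤ) : psi p (C n) = (n : PowerSeries (ZMod p)) := by simp [psi]

lemma psi_cyclotomic : psi p (cyclotomic p ℤ) = PowerSeries.X ^ (p - 1) := by
  have h1 : cyclotomic p ℤ * (X - 1) = X ^ p - 1 := cyclotomic_prime_mul_X_sub_one ℤ p
  have h2 := congrArg (psi p) h1
  rw [map_mul, map_sub, map_sub, map_pow, map_one, psi_X] at h2
  have h3 : (1 + PowerSeries.X : PowerSeries (ZMod p)) ^ p = 1 + PowerSeries.X ^ p := by
    have : CharP (PowerSeries (ZMod p)) p := by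
      have : CharP (ZMod p) p := inferInstance
      exact charP_of_injective_algebraMap (algebraMap (ZMod p) (PowerSeries (ZMod p))).injective p
    rw [add_pow_char, one_pow]
  rw [h3, add_sub_cancel_left, add_sub_cancel_left] at h2
  apply mul_right_cancel₀ (PowerSeries.X_ne_zero (R := ZMod p))
  rw [h2, ← pow_succ, Nat.sub_add_cancel hpf.out.pos]

/-- logarithmic derivative -/
noncomputable def dlog (f : PowerSeries (ZMod p)) : PowerSeries (ZMod p) :=
  PowerSeries.derivative (ZMod p) f * f⁻¹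

lemma dlog_mul {f g : PowerSeries (ZMod p)} (hf : PowerSeries.constantCoeff f ≠ 0)
    (hg : PowerSeries.constantCoeff g ≠ 0) : dlog (f * g) = dlog f + dlog g := by
  unfold dlog
  rw [PowerSeries.mul_inv_rev, Derivation.leibniz, smul_eq_mul, smul_eq_mul]
  have h1 : f * f⁻¹ = 1 := PowerSeries.mul_inv_cancel _ hf
  have h2 : g * g⁻¹ = 1 := PowerSeries.mul_inv_cancel _ hg
  calc (f * (PowerSeries.derivative (ZMod p)) g + g * (PowerSeries.derivative (ZMod p)) f) * (g⁻¹ * f⁻¹)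
      = (PowerSeries.derivative (ZMod p)) g * g⁻¹ * (f * f⁻¹)
        + (PowerSeries.derivative (ZMod p)) f * f⁻¹ * (g * g⁻¹) := by ring
    _ = _ := by rw [h1, h2]; ring

lemma X_pow_dvd_derivative {n : ℕ} {f : PowerSeries (ZMod p)} (h : PowerSeries.X ^ (n + 1) ∣ f) :
    PowerSeries.X ^ n ∣ PowerSeries.derivative (ZMod p) f := by
  obtain ⟨g, rfl⟩ := h
  rw [Derivation.leibniz, Derivation.leibniz_pow]
  refine ⟨PowerSeries.X * PowerSeries.derivative (ZMod p) g + g * ((n + 1 : ℕ) •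
    PowerSeries.derivative (ZMod p) PowerSeries.X), ?_⟩
  simp only [smul_eq_mul, Nat.add_sub_cancel]
  rw [nsmul_eq_mul, nsmul_eq_mul]
  ring

lemma dlog_congr {f g : PowerSeries (ZMod p)} (hp3 : 3 ≤ p)
    (hf : PowerSeries.constantCoeff f ≠ 0)
    (h : PowerSeries.X ^ (p - 1) ∣ f - g) {k : ℕ} (hk : k < p - 2) :
    PowerSeries.coeff k (dlog f) = PowerSeries.coeff k (dlog g) := by
  have hg : PowerSeries.constantCoeff g ≠ 0 := by
    have h0 : PowerSeries.X ∣ f - g :=
      (dvd_pow_self _ (by omega)).trans h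
    rw [PowerSeries.X_dvd_iff, map_sub, sub_eq_zero] at h0
    rwa [← h0]
  have h1 : f * f⁻¹ = 1 := PowerSeries.mul_inv_cancel _ hf
  have h2 : g * g⁻¹ = 1 := PowerSeries.mul_inv_cancel _ hg
  have h' : PowerSeries.X ^ (p - 2) ∣ PowerSeries.derivative (ZMod p) (f - g) := by
    apply X_pow_dvd_derivative
    rwa [show p - 2 + 1 = p - 1 by omega]
  have h'' : (PowerSeries.X : PowerSeries (ZMod p)) ^ (p - 2) ∣ f - g :=
    (pow_dvd_pow _ (by omega)).trans h
  have h3 : dlog f - dlog g =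
      (PowerSeries.derivative (ZMod p) (f - g) * g - PowerSeries.derivative (ZMod p) g * (f - g))
        * (f⁻¹ * g⁻¹) := by
    unfold dlog
    rw [map_sub]
    calc _ = PowerSeries.derivative (ZMod p) f * f⁻¹ * (g * g⁻¹)
          - PowerSeries.derivative (ZMod p) g * g⁻¹ * (f * f⁻¹) := by rw [h1, h2]; ring
      _ = _ := by ring
  have h4 : (PowerSeries.X : PowerSeries (ZMod p)) ^ (p - 2) ∣ dlog f - dlog g := by
    rw [h3]
    exact Dvd.dvd.mul_right (dvd_sub (Dvd.dvd.mul_right h' _) (Dvd.dvd.mul_left h'' _)) _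
  rw [PowerSeries.X_pow_dvd_iff] at h4
  have := h4 k hk
  rwa [map_sub, sub_eq_zero] at this

end PowerSeriesPart

section Cyclo

variable {p : ℕ} [hpf : Fact p.Prime] {K : Type*} [Field K] [NumberField K]
  [IsCyclotomicExtension {p} ℚ K] {ζ : K} (hζ : IsPrimitiveRoot ζ p)

include hζ in
lemma exists_poly (x : 𝓞 K) : ∃ F : ℤ[X], aeval hζ.toInteger F = x := by
  have h := IsCyclotomicExtension.Rat.adjoin_singleton_eq_top hζ
  have hx : x ∈ Algebra.adjoin ℤ {hζ.toInteger} := by rw [h]; trivial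
  rw [Algebra.adjoin_singleton_eq_range_aeval] at hx
  exact hx

include hζ in
lemma psi_congr {F G : ℤ[X]} (h : aeval hζ.toInteger F = aeval hζ.toInteger G) :
    (PowerSeries.X : PowerSeries (ZMod p)) ^ (p - 1) ∣ psi p F - psi p G := by
  have h1 : aeval ζ (F - G) = 0 := by
    have h2 : aeval hζ.toInteger (F - G) = 0 := by rw [map_sub, h, sub_self]
    have h3 := congrArg (algebraMap (𝓞 K) K) h2
    rw [← aeval_algebraMap_apply, map_zero] at h3
    exact h3
  have h2 : cyclotomic p ℤ ∣ F - G := by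
    rw [cyclotomic_eq_minpoly hζ hpf.out.pos]
    exact minpoly.isIntegrallyClosed_dvd (hζ.isIntegral hpf.out.pos) h1
  obtain ⟨H, hH⟩ := h2
  rw [← map_sub, hH, map_mul, psi_cyclotomic]
  exact Dvd.intro _ rfl

/-- a polynomial representing a unit -/
noncomputable def rep (u : (𝓞 K)ˣ) : ℤ[X] := (exists_poly hζ (u : 𝓞 K)).choose

lemma rep_spec (u : (𝓞 K)ˣ) : aeval hζ.toInteger (rep hζ u) = (u : 𝓞 K) :=
  (exists_poly hζ (u : 𝓞 K)).choose_spec

lemma constantCoeff_ne (hp3 : 3 ≤ p) {F : ℤ[X]} {u : (𝓞 K)ˣ} (hF : aeval hζ.toInteger F = (u : 𝓞 K)) :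
    PowerSeries.constantCoeff (psi p F) ≠ 0 := by
  have h1 : aeval hζ.toInteger (F * rep hζ u⁻¹) = aeval hζ.toInteger (1 : ℤ[X]) := by
    rw [map_mul, hF, rep_spec, map_one, Units.mul_inv]
  have h2 := psi_congr hζ h1
  have h3 : (PowerSeries.X : PowerSeries (ZMod p)) ∣ psi p (F * rep hζ u⁻¹) - psi p 1 :=
    (dvd_pow_self _ (by omega)).trans h2
  rw [PowerSeries.X_dvd_iff, map_sub, sub_eq_zero, map_mul, map_mul, map_one, map_one] at h3
  intro h0
  rw [h0, zero_mul] at h3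
  exact zero_ne_one h3

/-- the `k`-th Kummer logarithm of a unit -/
noncomputable def klog (u : (𝓞 K)ˣ) (k : ℕ) : ZMod p :=
  PowerSeries.coeff k (dlog (psi p (rep hζ u)))

lemma klog_eq (hp3 : 3 ≤ p) {F : ℤ[X]} {u : (𝓞 K)ˣ} (hF : aeval hζ.toInteger F = (u : 𝓞 K))
    {k : ℕ} (hk : k < p - 2) : klog hζ u k = PowerSeries.coeff k (dlog (psi p F)) := by
  unfold klog
  apply dlog_congr hp3 (constantCoeff_ne hζ hp3 (rep_spec hζ u)) _ hk
  apply psi_congr hζ
  rw [rep_spec, hF]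

lemma klog_mul (hp3 : 3 ≤ p) (u v : (𝓞 K)ˣ) {k : ℕ} (hk : k < p - 2) :
    klog hζ (u * v) k = klog hζ u k + klog hζ v k := by
  rw [klog_eq hζ hp3 (F := rep hζ u * rep hζ v) (by rw [map_mul, rep_spec, rep_spec]; rfl) hk,
    map_mul, dlog_mul (constantCoeff_ne hζ hp3 (rep_spec hζ u))
      (constantCoeff_ne hζ hp3 (rep_spec hζ v)), map_add]
  rfl

lemma klog_one (hp3 : 3 ≤ p) {k : ℕ} (hk : k < p - 2) : klog hζ (1 : (𝓞 K)ˣ) k = 0 := by
  have := klog_mul hζ hp3 1 1 hk
  rw [one_mul] at this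
  exact left_eq_add.mp this

lemma klog_int (hp3 : 3 ≤ p) {u : (𝓞 K)ˣ} (h : ∃ n : ℤ, (p : 𝓞 K) ∣ (u : 𝓞 K) - n) {k : ℕ}
    (hk : k < p - 2) : klog hζ u k = 0 := by
  obtain ⟨n, y, hy⟩ := h
  obtain ⟨G, hG⟩ := exists_poly hζ y
  rw [klog_eq hζ hp3 (F := C n + C (p : ℤ) * G) _ hk]
  · rw [map_add, map_mul, psi_C, psi_C]
    have hp0 : (((p : ℤ) : PowerSeries (ZMod p))) = 0 := by
      push_cast
      rw [← map_natCast (algebraMap (ZMod p) (PowerSeries (ZMod p)))]
      simp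
    rw [hp0, zero_mul, add_zero]
    unfold dlog
    have : PowerSeries.derivative (ZMod p) ((n : ℤ) : PowerSeries (ZMod p)) = 0 := by
      exact Derivation.map_intCast _ n
    rw [this, zero_mul, map_zero]
  · rw [map_add, map_mul, aeval_C, aeval_C, hG]
    simp only [algebraMap_int_eq, eq_intCast, Int.cast_natCast]
    rw [← hy]; ring

end Cyclo

end Fermat.Agent.KummerFLT
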