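import Fermat.Agent.KummerFLT.LogDeriv

set_option autoImplicit false

/-!
# General tools for showing that a prime cyclotomic ring of integers is a PID
-/

namespace Fermat.Agent.KummerFLT

open Finset Polynomial NumberField InfinitePlace Ideal Real Module

variable {p : ℕ} [hpf : Fact p.Prime] {K : Type*} [Field K] [NumberField K]
  [IsCyclotomicExtension {p} ℚ K]

lemma span_nat_isMaximal {q : ℕ} (hq : q.Prime) : (span {(q : ℤ)}).IsMaximal :=
  (isPrime_of_prime (prime_span_singleton_iff.mpr (Nat.prime_iff_prime_int.mp hq))).isMaximal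
      (by simp [hq.ne_zero])

theorem pid_of_bound (B : ℕ)
    (hB : (4 / π) ^ nrComplexPlaces K *
      (((finrank ℚ K).factorial : ℝ) / (finrank ℚ K) ^ (finrank ℚ K) * √|discr K|) < B + 1)
    (h : ∀ q : ℕ, q.Prime → q ≠ p → q ≤ B → (∃ k, 1 ≤ k ∧ q ^ k ≤ B ∧ q ^ k % p = 1) →
      ∃ P ∈ primesOver (span {(q : ℤ)}) (𝓞 K), Submodule.IsPrincipal P) :
    IsPrincipalIdealRing (𝓞 K) := by
  have : IsGalois ℚ K := IsCyclotomicExtension.isGalois {p} ℚ K
  have hζ := IsCyclotomicExtension.zeta_spec p ℚ K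
  have hfl : ⌊(4 / π) ^ nrComplexPlaces K *
      (((finrank ℚ K).factorial : ℝ) / (finrank ℚ K) ^ (finrank ℚ K) * √|discr K|)⌋₊ ≤ B := by
    apply Nat.lt_succ_iff.mp
    rw [Nat.floor_lt (by positivity)]
    push_cast
    exact hB
  apply RingOfIntegers.isPrincipalIdealRing_of_isPrincipal_of_lt_or_isPrincipal_of_mem_primesOver_of_mem_Icc
  intro q hq hqp
  rw [Finset.mem_Icc] at hq
  have : Fact q.Prime := ⟨hqp⟩
  have hmax : (span {(q : ℤ)}).IsMaximal := span_nat_isMaximal hqp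
  obtain ⟨P, hP⟩ := (inferInstance : Nonempty (primesOver (span {(q : ℤ)}) (𝓞 K)))
  have hP1 := hP.1
  have hP2 := hP.2
  by_cases hqp' : q = p
  · subst hqp'
    refine ⟨P, hP, Or.inr ?_⟩
    rw [IsCyclotomicExtension.Rat.eq_span_zeta_sub_one_of_liesOver' q K hζ P]
    exact ⟨⟨_, rfl⟩⟩
  · have hnd : ¬ q ∣ p := by
      rw [Nat.prime_dvd_prime_iff_eq hqp hpf.out]; exact hqp'
    have hin := IsCyclotomicExtension.Rat.inertiaDeg_eq_of_not_dvd (m := p) q K P hnd
    by_cases hle : q ^ P.inertiaDeg ℤ ≤ B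
    · have h1 : ∃ k, 1 ≤ k ∧ q ^ k ≤ B ∧ q ^ k % p = 1 := by
        refine ⟨P.inertiaDeg ℤ, ?_, hle, ?_⟩
        · exact P.inertiaDeg_pos ℤ
        · have h2 : ((q ^ P.inertiaDeg ℤ : ℕ) : ZMod p) = ((1 : ℕ) : ZMod p) := by
            push_cast
            rw [hin, pow_orderOf_eq_one]
          rw [ZMod.natCast_eq_natCast_iff'] at h2
          rw [h2, Nat.mod_eq_of_lt hpf.out.one_lt]
      obtain ⟨Q, hQ, hQ'⟩ := h q hqp hqp' (hq.2.trans hfl) h1
      exact ⟨Q, hQ, Or.inr hQ'⟩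
    · exact ⟨P, ⟨hP1, hP2⟩, Or.inl (by omega)⟩


variable {ζ : K} (hζ : IsPrimitiveRoot ζ p)

include hζ in
lemma cyclotomic_dvd_of_aeval_eq_zero {F : ℤ[X]} (h : aeval hζ.toInteger F = 0) :
    cyclotomic p ℤ ∣ F := by
  have h1 : aeval ζ F = 0 := by
    have h2 := congrArg (algebraMap (𝓞 K) K) h
    rw [map_zero, ← aeval_algebraMap_apply] at h2
    exact h2
  rw [cyclotomic_eq_minpoly hζ hpf.out.pos]
  exact minpoly.isIntegrallyClosed_dvd (hζ.isIntegral hpf.out.pos) h1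

lemma aeval_cyclotomic : aeval hζ.toInteger (cyclotomic p ℤ) = 0 := by
  have h := hζ.toInteger_isPrimitiveRoot.isRoot_cyclotomic hpf.out.pos
  rwa [IsRoot.def, ← map_cyclotomic_int, eval_map, ← algebraMap_int_eq, ← aeval_def] at h

include hζ in
/-- degree-one primes generated by an element -/
theorem principal_of_deg_one (q : ℕ) (hq : q.Prime) (r : ℤ) (f β h γ h2 : ℤ[X])
    (e1 : f * β = C (q : ℤ) + cyclotomic p ℤ * h)
    (e2 : f * γ = (X - C r) + cyclotomic p ℤ * h2)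
    (e3 : (q : ℤ) ∣ f.eval r) (e4 : (q : ℤ) ∣ (cyclotomic p ℤ).eval r) :
    ∃ P ∈ primesOver (span {(q : ℤ)}) (𝓞 K), Submodule.IsPrincipal P := by
  set z := hζ.toInteger with hz
  set α : 𝓞 K := aeval z f with hα
  have hqα : α ∣ (q : 𝓞 K) := by
    refine ⟨aeval z β, ?_⟩
    rw [hα, ← map_mul, e1, map_add, map_mul, aeval_cyclotomic hζ, zero_mul, add_zero, aeval_C]
    simp
  have hzα : α ∣ z - r := by
    refine ⟨aeval z γ, ?_⟩
    rw [hα, ← map_mul, e2, map_add, map_mul, aeval_cyclotomic hζ, zero_mul, add_zero]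
    simp
  have hnu : ¬ IsUnit α := by
    intro hu
    obtain ⟨y, hy⟩ := isUnit_iff_exists_inv.mp hu
    obtain ⟨G, hG⟩ := exists_poly hζ y
    have h1 : aeval z (f * G - 1) = 0 := by
      rw [map_sub, map_mul, hG, map_one, sub_eq_zero]; exact hy
    obtain ⟨H, hH⟩ := cyclotomic_dvd_of_aeval_eq_zero hζ h1
    have h3 := congrArg (eval r) hH
    rw [eval_sub, eval_mul, eval_one, eval_mul] at h3
    have h4 : (q : ℤ) ∣ 1 := by
      have : (1 : ℤ) = f.eval r * G.eval r - (cyclotomic p ℤ).eval r * H.eval r := by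
        rw [← h3]; ring
      rw [this]
      exact dvd_sub (Dvd.dvd.mul_right e3 _) (Dvd.dvd.mul_right e4 _)
    exact (Nat.prime_iff_prime_int.mp hq).not_unit (isUnit_of_dvd_one h4)
  obtain ⟨P, hP, hle⟩ := Ideal.exists_le_maximal (span {α}) (by
    rw [Ne, span_singleton_eq_top]; exact hnu)
  have hqP : (q : 𝓞 K) ∈ P := hle (mem_span_singleton.mpr hqα)
  have hover : P.LiesOver (span {(q : ℤ)}) := by
    rw [liesOver_iff]
    refine IsMaximal.eq_of_le (span_nat_isMaximal hq) (IsPrime.ne_top (hP.isPrime.under ℤ)) ?_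
    rw [span_singleton_le_iff_mem, mem_comap, algebraMap_int_eq, map_natCast]
    exact hqP
  refine ⟨P, ⟨hP.isPrime, hover⟩, ?_⟩
  have hPeq : P = span {α} := by
    refine le_antisymm (fun x hx => ?_) hle
    obtain ⟨F, hF⟩ := exists_poly hζ x
    obtain ⟨Q, hQ⟩ := X_sub_C_dvd_sub_C_eval (a := r) (p := F)
    have h1 : x - (F.eval r : ℤ) = (z - r) * aeval z Q := by
      have h2 := congrArg (aeval z) hQ
      rw [map_sub, map_mul, map_sub, aeval_X, aeval_C, aeval_C, hF] at h2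
      simpa using h2
    have h2 : α ∣ x - (F.eval r : ℤ) := by rw [h1]; exact Dvd.dvd.mul_right hzα _
    have h3 : ((F.eval r : ℤ) : 𝓞 K) ∈ P := by
      have : ((F.eval r : ℤ) : 𝓞 K) = x - (x - (F.eval r : ℤ)) := by ring
      rw [this]
      exact P.sub_mem hx (hle (mem_span_singleton.mpr h2))
    have h4 : (F.eval r : ℤ) ∈ span {(q : ℤ)} := by
      rw [hover.over, mem_comap]; simpa using h3
    rw [mem_span_singleton] at h4
    obtain ⟨c, hc⟩ := h4
    rw [mem_span_singleton]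
    have : x = (x - (F.eval r : ℤ)) + (q : 𝓞 K) * c := by
      rw [hc]; push_cast; ring
    rw [this]
    exact dvd_add h2 (Dvd.dvd.mul_right hqα _)
  rw [hPeq]
  exact ⟨⟨_, rfl⟩⟩

end Fermat.Agent.KummerFLT
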