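import Mathlib

set_option autoImplicit false

namespace Fermat.Agent.KummerFLT

open Finset

/-- the cofactor `(a^p + b^p)/(a+b)` -/
def cof {R : Type*} [CommRing R] (p : ℕ) (a b : R) : R :=
  ∑ i ∈ range p, a ^ i * (-b) ^ (p - 1 - i)

lemma cof_mul {R : Type*} [CommRing R] {p : ℕ} (hp : Odd p) (a b : R) :
    cof p a b * (a + b) = a ^ p + b ^ p := by
  have h := (Commute.all a (-b)).geom_sum₂_mul p
  rw [sub_neg_eq_add, hp.neg_pow, sub_neg_eq_add] at h
  exact h

lemma cof_map {R S : Type*} [CommRing R] [CommRing S] (f : R →+* S) (p : ℕ) (a b : R) :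
    f (cof p a b) = cof p (f a) (f b) := by
  simp [cof, map_sum]

lemma cof_of_add_eq_zero {R : Type*} [CommRing R] {p : ℕ} (hp : 0 < p) (a b : R) (h : a + b = 0) :
    cof p a b = p * a ^ (p - 1) := by
  have hb : -b = a := by rw [eq_comm, ← sub_eq_zero, sub_neg_eq_add]; exact h
  unfold cof
  rw [hb]
  have : ∀ i ∈ range p, a ^ i * a ^ (p - 1 - i) = a ^ (p - 1) := by
    intro i hi
    rw [mem_range] at hi
    rw [← pow_add]
    congr 1
    omega
  rw [Finset.sum_congr rfl this]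
  simp

lemma cof_of_left_eq_zero {R : Type*} [CommRing R] {p : ℕ} (hp : Odd p) (b : R) :
    cof p 0 b = b ^ (p - 1) := by
  unfold cof
  rw [Finset.sum_eq_single 0]
  · have : Even (p - 1) := by
      obtain ⟨k, hk⟩ := hp
      exact ⟨k, by omega⟩
    simp [this.neg_pow]
  · intro i _ hi
    simp [zero_pow hi]
  · intro h
    simp only [mem_range, not_lt, Nat.le_zero] at h
    subst h
    simp at hp

lemma cof_modEq (p : ℕ) (hp : 0 < p) (a b : ℤ) : ∃ k, cof p a b = p * a ^ (p - 1) + (a + b) * k := by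
  have h : (a + b) ∣ cof p a b - p * a ^ (p - 1) := by
    rw [← Ideal.mem_span_singleton, ← Ideal.Quotient.eq, cof_map, map_mul, map_pow, map_natCast]
    apply cof_of_add_eq_zero hp
    rw [← map_add, Ideal.Quotient.eq_zero_iff_mem]
    exact Ideal.mem_span_singleton_self _
  obtain ⟨k, hk⟩ := h
  exact ⟨k, by rw [← hk]; ring⟩

lemma isCoprime_add_cof {p : ℕ} (hp : p.Prime) (hodd : Odd p) {a b c : ℤ} (hab : IsCoprime a b)
    (h : a ^ p + b ^ p + c ^ p = 0) (hc : ¬ (p : ℤ) ∣ c) : IsCoprime (a + b) (cof p a b) := by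
  obtain ⟨k, hk⟩ := cof_modEq p hp.pos a b
  rw [hk]
  apply IsCoprime.add_mul_left_right
  apply IsCoprime.mul_right
  · rw [isCoprime_comm, Int.isCoprime_iff_gcd_eq_one]
    rw [← Int.isCoprime_iff_gcd_eq_one]
    rw [Prime.coprime_iff_not_dvd (Nat.prime_iff_prime_int.mp hp)]
    intro hdvd
    apply hc
    apply (Nat.prime_iff_prime_int.mp hp).dvd_of_dvd_pow (n := p)
    have h2 : c ^ p = - (cof p a b * (a + b)) := by
      rw [cof_mul hodd]; linarith
    rw [h2]
    exact (dvd_neg.mpr (dvd_mul_of_dvd_right hdvd _))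
  · apply IsCoprime.pow_right
    have : IsCoprime (a * 1 + b) a := by
      rw [IsCoprime.mul_add_left_left_iff]
      exact hab.symm
    simpa using this

lemma exists_pows {p : ℕ} (hp : p.Prime) (hodd : Odd p) {a b c : ℤ} (hab : IsCoprime a b)
    (h : a ^ p + b ^ p + c ^ p = 0) (hc : ¬ (p : ℤ) ∣ c) :
    ∃ r s : ℤ, a + b = r ^ p ∧ cof p a b = s ^ p := by
  have hcop := isCoprime_add_cof hp hodd hab h hc
  have hmul : (a + b) * cof p a b = (-c) ^ p := by
    rw [mul_comm, cof_mul hodd, hodd.neg_pow]; linarith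
  obtain ⟨r, hr⟩ := Int.eq_pow_of_mul_eq_pow_odd_left hcop hodd hmul
  obtain ⟨s, hs⟩ := Int.eq_pow_of_mul_eq_pow_odd_right hcop hodd hmul
  exact ⟨r, s, hr, hs⟩

lemma caseI_key {p q : ℕ} (hp : p.Prime) (hodd : Odd p) (hq : q.Prime)
    (h1 : ∀ x y z : ZMod q, x ^ p + y ^ p + z ^ p = 0 → x = 0 ∨ y = 0 ∨ z = 0)
    (h2 : ∀ x : ZMod q, x ^ p ≠ p)
    {x y z : ℤ} (hxy : IsCoprime x y) (hyz : IsCoprime y z) (hzx : IsCoprime z x)
    (h : x ^ p + y ^ p + z ^ p = 0) (hpx : ¬ (p : ℤ) ∣ x) (hpy : ¬ (p : ℤ) ∣ y)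
    (hpz : ¬ (p : ℤ) ∣ z) (hqx : (q : ℤ) ∣ x) : False := by
  have : Fact q.Prime := ⟨hq⟩
  obtain ⟨c, γ, hc, hγ⟩ := exists_pows hp hodd hxy h hpz
  obtain ⟨a, α, ha, hα⟩ := exists_pows hp hodd hyz (c := x) (by linarith) hpx
  obtain ⟨b, β, hb, hβ⟩ := exists_pows hp hodd hzx (c := y) (by linarith) hpy
  have hqne : ∀ u v : ℤ, IsCoprime u v → ((u : ℤ) : ZMod q) = 0 → ((v : ℤ) : ZMod q) = 0 → False := by
    intro u v huv hu hv
    rw [ZMod.intCast_zmod_eq_zero_iff_dvd] at hu hv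
    have := huv.isUnit_of_dvd' hu hv
    rw [Int.isUnit_iff] at this
    have hq2 := hq.two_le
    omega
  have hx0 : ((x : ℤ) : ZMod q) = 0 := by
    rw [ZMod.intCast_zmod_eq_zero_iff_dvd]; exact hqx
  have hc' : (x : ZMod q) + (y : ZMod q) = (c : ZMod q) ^ p := by
    have := congrArg (Int.cast : ℤ → ZMod q) hc; push_cast at this; exact this
  have ha' : (y : ZMod q) + (z : ZMod q) = (a : ZMod q) ^ p := by
    have := congrArg (Int.cast : ℤ → ZMod q) ha; push_cast at this; exact this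
  have hb' : (z : ZMod q) + (x : ZMod q) = (b : ZMod q) ^ p := by
    have := congrArg (Int.cast : ℤ → ZMod q) hb; push_cast at this; exact this
  have hsum : (b : ZMod q) ^ p + (c : ZMod q) ^ p + (-(a : ZMod q)) ^ p = 0 := by
    rw [hodd.neg_pow, ← ha', ← hb', ← hc', hx0]; ring
  rcases h1 _ _ _ hsum with hb0 | hc0 | ha0
  · rw [hb0, zero_pow hp.ne_zero, hx0, add_zero] at hb'
    exact hqne _ _ hzx hb' hx0
  · rw [hc0, zero_pow hp.ne_zero, hx0, zero_add] at hc'
    exact hqne _ _ hxy hx0 hc'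
  · rw [neg_eq_zero] at ha0
    rw [ha0, zero_pow hp.ne_zero] at ha'
    have hα' : (p : ZMod q) * (y : ZMod q) ^ (p - 1) = (α : ZMod q) ^ p := by
      rw [← cof_of_add_eq_zero hp.pos _ _ ha']
      have := congrArg (Int.castRingHom (ZMod q)) hα
      rw [cof_map] at this
      simpa using this
    have hγ' : (y : ZMod q) ^ (p - 1) = (γ : ZMod q) ^ p := by
      have := congrArg (Int.castRingHom (ZMod q)) hγ
      rw [cof_map] at this
      simp only [eq_intCast, hx0, map_pow] at this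
      rw [cof_of_left_eq_zero hodd] at this
      exact this
    have hy0 : (y : ZMod q) ≠ 0 := fun hy => hqne _ _ hxy hx0 hy
    have hγ0 : (γ : ZMod q) ≠ 0 := by
      intro h0
      rw [h0, zero_pow hp.ne_zero] at hγ'
      exact hy0 ((pow_eq_zero_iff (by have := hp.two_le; omega)).mp hγ')
    apply h2 ((α : ZMod q) / (γ : ZMod q))
    rw [div_pow, ← hα', ← hγ', mul_div_assoc, div_self, mul_one]
    exact pow_ne_zero _ hy0

/-- Sophie Germain's theorem. -/
theorem caseI_of_auxiliary {p q : ℕ} (hp : p.Prime) (hodd : Odd p) (hq : q.Prime)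
    (h1 : ∀ x y z : ZMod q, x ^ p + y ^ p + z ^ p = 0 → x = 0 ∨ y = 0 ∨ z = 0)
    (h2 : ∀ x : ZMod q, x ^ p ≠ p)
    {x y z : ℤ} (hxy : IsCoprime x y) (hyz : IsCoprime y z) (hzx : IsCoprime z x)
    (h : x ^ p + y ^ p + z ^ p = 0) (hpx : ¬ (p : ℤ) ∣ x) (hpy : ¬ (p : ℤ) ∣ y)
    (hpz : ¬ (p : ℤ) ∣ z) : False := by
  have hq' : ((x : ZMod q)) ^ p + (y : ZMod q) ^ p + (z : ZMod q) ^ p = 0 := by
    have := congrArg (Int.cast : ℤ → ZMod q) h; push_cast at this; exact this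
  rcases h1 _ _ _ hq' with h0 | h0 | h0
  · rw [ZMod.intCast_zmod_eq_zero_iff_dvd] at h0
    exact caseI_key hp hodd hq h1 h2 hxy hyz hzx h hpx hpy hpz h0
  · rw [ZMod.intCast_zmod_eq_zero_iff_dvd] at h0
    exact caseI_key hp hodd hq h1 h2 hyz hzx hxy (by linarith) hpy hpz hpx h0
  · rw [ZMod.intCast_zmod_eq_zero_iff_dvd] at h0
    exact caseI_key hp hodd hq h1 h2 hzx hxy hyz (by linarith) hpz hpx hpy h0



/-! ### concrete auxiliary primes -/

lemma aux_5_11 : (∀ x y z : ZMod 11, x ^ 5 + y ^ 5 + z ^ 5 = 0 → x = 0 ∨ y = 0 ∨ z = 0) := by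
  have key : ∀ x : ZMod 11, x = 0 ∨ x ^ 5 = 1 ∨ x ^ 5 = -1 := by decide
  intro x y z h
  rcases key x with hx | hx | hx
  · exact Or.inl hx
  all_goals
    rcases key y with hy | hy | hy
    · exact Or.inr (Or.inl hy)
    all_goals
      rcases key z with hz | hz | hz
      · exact Or.inr (Or.inr hz)
      all_goals
        exfalso
        rw [hx, hy, hz] at h
        revert h
        decide

lemma aux_11_23 : (∀ x y z : ZMod 23, x ^ 11 + y ^ 11 + z ^ 11 = 0 → x = 0 ∨ y = 0 ∨ z = 0) := by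
  have key : ∀ x : ZMod 23, x = 0 ∨ x ^ 11 = 1 ∨ x ^ 11 = -1 := by decide
  intro x y z h
  rcases key x with hx | hx | hx
  · exact Or.inl hx
  all_goals
    rcases key y with hy | hy | hy
    · exact Or.inr (Or.inl hy)
    all_goals
      rcases key z with hz | hz | hz
      · exact Or.inr (Or.inr hz)
      all_goals
        exfalso
        rw [hx, hy, hz] at h
        revert h
        decide

lemma aux_7_29 : (∀ x y z : ZMod 29, x ^ 7 + y ^ 7 + z ^ 7 = 0 → x = 0 ∨ y = 0 ∨ z = 0) := by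
  have key : ∀ x : ZMod 29, x = 0 ∨ x ^ 7 = 1 ∨ x ^ 7 = -1 ∨ x ^ 7 = 12 ∨ x ^ 7 = -12 := by decide
  intro x y z h
  rcases key x with hx | hx | hx | hx | hx
  · exact Or.inl hx
  all_goals
    rcases key y with hy | hy | hy | hy | hy
    · exact Or.inr (Or.inl hy)
    all_goals
      rcases key z with hz | hz | hz | hz | hz
      · exact Or.inr (Or.inr hz)
      all_goals
        exfalso
        rw [hx, hy, hz] at h
        revert h
        decide

lemma aux_13_53 : (∀ x y z : ZMod 53, x ^ 13 + y ^ 13 + z ^ 13 = 0 → x = 0 ∨ y = 0 ∨ z = 0) := by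
  have key : ∀ x : ZMod 53, x = 0 ∨ x ^ 13 = 1 ∨ x ^ 13 = -1 ∨ x ^ 13 = 23 ∨ x ^ 13 = -23 := by
    decide
  intro x y z h
  rcases key x with hx | hx | hx | hx | hx
  · exact Or.inl hx
  all_goals
    rcases key y with hy | hy | hy | hy | hy
    · exact Or.inr (Or.inl hy)
    all_goals
      rcases key z with hz | hz | hz | hz | hz
      · exact Or.inr (Or.inr hz)
      all_goals
        exfalso
        rw [hx, hy, hz] at h
        revert h
        decide

lemma aux_5_11' : ∀ x : ZMod 11, x ^ 5 ≠ (5 : ℕ) := by decide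
lemma aux_7_29' : ∀ x : ZMod 29, x ^ 7 ≠ (7 : ℕ) := by decide
lemma aux_11_23' : ∀ x : ZMod 23, x ^ 11 ≠ (11 : ℕ) := by decide
lemma aux_13_53' : ∀ x : ZMod 53, x ^ 13 ≠ (13 : ℕ) := by decide

end Fermat.Agent.KummerFLT
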